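/-
Project H (S43) / LGC / KCM / Series   (helper2)

Formal `q`-series for the Kummer generator of `X_H(M q) → X₀(M q)`:

* `eisCoeff χ n = ∑_{d m = n} χ(d) m`, `eisSer χ = ∑_{n ≥ 1} eisCoeff χ n Xⁿ`
  (the Eisenstein series `E₂^{χ,1}` without constant term);
* `pref R q = (E₄E₆/Δ)(X^q)` and `sharp R q χ = pref R q · eisSer χ`  (**`h^♯_χ`**);
* character sums over `0 < a < q` against the indicator functions of the Lambert coefficients of the
  Fricke functions `f_{(a,0)}`.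
-/
import Mathlib
import Fermat.Agent.S48lib.X1.Field.Defs

set_option autoImplicit false
set_option linter.unusedSectionVars false

noncomputable section

namespace Fermat.Agent.S43lib.LGC.KCM

open ModularCurve Fermat.Agent.S48lib.X1

section Defs

variable {R : Type*} [CommRing R]

/-- `∑_{d m = n} χ(d) m` -/
def eisCoeff (χ : ℕ → R) (n : ℕ) : R := ∑ x ∈ n.divisorsAntidiagonal, χ x.1 * (x.2 : R)

@[simp] lemma eisCoeff_zero (χ : ℕ → R) : eisCoeff χ 0 = 0 := by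
  simp [eisCoeff]

/-- the Eisenstein series `∑_{n ≥ 1} (∑_{d m = n} χ(d) m) Xⁿ` -/
def eisSer (χ : ℕ → R) : PowerSeries R := PowerSeries.mk (eisCoeff χ)

@[simp] lemma coeff_eisSer (χ : ℕ → R) (n : ℕ) : PowerSeries.coeff n (eisSer χ) = eisCoeff χ n :=
  PowerSeries.coeff_mk _ _

lemma map_eisCoeff {S : Type*} [CommRing S] (φ : R →+* S) (χ : ℕ → R) (n : ℕ) :
    φ (eisCoeff χ n) = eisCoeff (fun d => φ (χ d)) n := by
  simp only [eisCoeff, map_sum, map_mul, map_natCast]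

lemma map_eisSer {S : Type*} [CommRing S] (φ : R →+* S) (χ : ℕ → R) :
    (eisSer χ).map φ = eisSer (fun d => φ (χ d)) := by
  ext n
  rw [PowerSeries.coeff_map, coeff_eisSer, coeff_eisSer, map_eisCoeff]

variable (R)

/-- `(E₄E₆/Δ)(X^q)` -/
def pref (q : ℕ) [NeZero q] : LaurentSeries R :=
  qInv R q * lvl1 R q (eisenstein4 * e6 * dedekindEtaUnitInv)

variable {R}

/-- **`h^♯_χ = (E₄E₆/Δ)(X^q) · ∑_{n ≥ 1} (∑_{d m = n} χ(d) m) Xⁿ`** -/
def sharp (q : ℕ) [NeZero q] (χ : ℕ → R) : LaurentSeries R :=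
  pref R q * HahnSeries.ofPowerSeries ℤ R (eisSer χ)

lemma coeffMap_pref {S : Type*} [CommRing S] (φ : R →+* S) (q : ℕ) [NeZero q] :
    coeffMap φ (pref R q) = pref S q := by
  rw [pref, map_mul, coeffMap_qInv, coeffMap_lvl1, pref]

lemma coeffMap_ofPowerSeries {S : Type*} [CommRing S] (φ : R →+* S) (f : PowerSeries R) :
    coeffMap φ (HahnSeries.ofPowerSeries ℤ R f) = HahnSeries.ofPowerSeries ℤ S (f.map φ) := by
  ext n
  rw [coeffMap_coeff]
  by_cases hn : 0 ≤ n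
  · obtain ⟨k, rfl⟩ := Int.eq_ofNat_of_zero_le hn
    rw [HahnSeries.ofPowerSeries_apply_coeff, HahnSeries.ofPowerSeries_apply_coeff,
      PowerSeries.coeff_map]
  · push Not at hn
    rw [ofPowerSeries_coeff_of_neg _ hn, ofPowerSeries_coeff_of_neg _ hn, map_zero]

lemma coeffMap_sharp {S : Type*} [CommRing S] (φ : R →+* S) (q : ℕ) [NeZero q] (χ : ℕ → R) :
    coeffMap φ (sharp q χ) = sharp q (fun d => φ (χ d)) := by
  rw [sharp, map_mul, coeffMap_pref, coeffMap_ofPowerSeries, map_eisSer, sharp]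

end Defs

/-! ### character sums -/

section Sums

variable {R : Type*} [CommRing R] {q : ℕ} [hq : Fact q.Prime]

/-- a multiplicative character of `ZMod q` as a function on `ℕ` -/
def chi (ψ : MulChar (ZMod q) R) (n : ℕ) : R := ψ (n : ZMod q)

lemma map_chi {S : Type*} [CommRing S] (φ : R →+* S) (ψ : MulChar (ZMod q) R) (n : ℕ) :
    φ (chi ψ n) = chi (ψ.ringHomComp φ) n := rfl

lemma sum_Ico_eq_sum_zmod (ψ : MulChar (ZMod q) R) (F : ZMod q → R) :
    ∑ a ∈ Finset.Ico 1 q, chi ψ a * F (a : ZMod q) = ∑ x : ZMod q, ψ x * F x := by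
  haveI : NeZero q := ⟨hq.out.ne_zero⟩
  have h0 : ∑ a ∈ Finset.range q, chi ψ a * F (a : ZMod q) =
      ∑ a ∈ Finset.Ico 1 q, chi ψ a * F (a : ZMod q) := by
    rw [Finset.range_eq_Ico, Finset.sum_eq_sum_Ico_succ_bot hq.out.pos]
    simp only [chi, Nat.cast_zero]
    rw [MulChar.map_zero, zero_mul, zero_add]
  rw [← h0]
  refine Finset.sum_nbij' (fun j : ℕ => (j : ZMod q)) (fun x : ZMod q => x.val)
    (fun _ _ => Finset.mem_univ _) (fun x _ => Finset.mem_range.mpr x.val_lt) (fun j hj => ?_)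
    (fun x _ => ?_) (fun j hj => ?_)
  · exact ZMod.val_cast_of_lt (Finset.mem_range.mp hj)
  · exact ZMod.natCast_zmod_val x
  · rfl

/-- `∑_{0<a<q} ψ(a) [q ∣ d - a] = ψ(d)` -/
lemma sum_Ico_chi_ind_sub (ψ : MulChar (ZMod q) R) (d : ℕ) :
    ∑ a ∈ Finset.Ico 1 q, chi ψ a * (if (q : ℤ) ∣ (d : ℤ) - (a : ℤ) then (1 : R) else 0) =
      chi ψ d := by
  have h : ∀ a : ℕ, ((q : ℤ) ∣ (d : ℤ) - (a : ℤ)) ↔ ((a : ZMod q) = (d : ZMod q)) := by
    intro a
    rw [← ZMod.intCast_zmod_eq_zero_iff_dvd]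
    push_cast
    rw [sub_eq_zero, eq_comm]
  simp only [h]
  rw [sum_Ico_eq_sum_zmod ψ (fun x => if x = (d : ZMod q) then (1 : R) else 0)]
  simp [chi]

/-- `∑_{0<a<q} ψ(a) [q ∣ d + a] = ψ(-d)` -/
lemma sum_Ico_chi_ind_add (ψ : MulChar (ZMod q) R) (d : ℕ) :
    ∑ a ∈ Finset.Ico 1 q, chi ψ a * (if (q : ℤ) ∣ (d : ℤ) + (a : ℤ) then (1 : R) else 0) =
      ψ (-(d : ZMod q)) := by
  have h : ∀ a : ℕ, ((q : ℤ) ∣ (d : ℤ) + (a : ℤ)) ↔ ((a : ZMod q) = -(d : ZMod q)) := by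
    intro a
    rw [← ZMod.intCast_zmod_eq_zero_iff_dvd]
    push_cast
    rw [add_comm, add_eq_zero_iff_eq_neg]
  simp only [h]
  rw [sum_Ico_eq_sum_zmod ψ (fun x => if x = -(d : ZMod q) then (1 : R) else 0)]
  simp

/-- `∑_{0<a<q} ψ(a) = 0` for a nontrivial character -/
lemma sum_Ico_chi [IsDomain R] {ψ : MulChar (ZMod q) R} (hψ : ψ ≠ 1) :
    ∑ a ∈ Finset.Ico 1 q, chi ψ a = 0 := by
  have h := sum_Ico_eq_sum_zmod ψ (fun _ => (1 : R))
  simp only [mul_one] at h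
  rw [h]
  exact MulChar.sum_eq_zero_of_ne_one hψ

end Sums

end Fermat.Agent.S43lib.LGC.KCM
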