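/-
Project H (S43) / LGC / KCM / SharpAn   (helper2)

The analytic side of the `(a,0)`-resolvent: for `q ∣ N` and `q ∤ a` the function
`g_a(τ) = f_{(a,0)}(q τ)` (Fricke function of level `q` at the division point `a τ`, read at `q τ`)
is a weakly holomorphic function for `±Γ₁(N)`, transforms under `Γ₀(q)` by `g_a ∘ γ = g_{a γ₀₀}`,
and has the `q`-expansion `(E₄E₆/Δ)(q^q) · ∑ c_n qⁿ` with the Lambert coefficients `pwCoeff q a 0`.
-/
import Mathlib
import Fermat.Agent.S48lib.X1.Forms.FrickeExp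
import Fermat.Agent.S48lib.X1.Field.BridgeAn
import Fermat.Agent.S29lib.H.Degeneracy

set_option autoImplicit false
set_option linter.unusedSectionVars false
set_option linter.style.haveILetI false

noncomputable section

namespace Fermat.Agent.S43lib.LGC.KCM

open Complex Filter Function
open UpperHalfPlane hiding I
open ModularForm EisensteinSeries MatrixGroups CongruenceSubgroup ModularCurve
open Fermat.Agent.ProgramR Fermat.Agent.ProgramR.QExp
open Fermat.Agent.S29lib.H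
open Fermat.Agent.S48lib.X1 Fermat.Agent.S48lib.X1.Wp Fermat.Agent.S48lib.X1.Forms
open Fermat.Agent.S48lib.X1.HeckeJ
open Matrix.SpecialLinearGroup
open scoped Real Topology Manifold

local notation "Δ" => ModularForm.discriminant
local notation "𝕢" => Periodic.qParam

variable {q : ℕ} [NeZero q]

/-- the vector `(a, 0)` -/
def va (a : ℤ) : Fin 2 → ℤ := ![a, 0]

@[simp] lemma va_zero (a : ℤ) : va a 0 = a := rfl
@[simp] lemma va_one (a : ℤ) : va a 1 = 0 := rfl

lemma nz_va {a : ℤ} (ha : ¬ (q : ℤ) ∣ a) : NZ q (va a) := fun h => ha h.1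

/-- `g_a(τ) = f_{(a,0)}(q τ)` -/
def gA (q : ℕ) (a : ℤ) (τ : ℍ) : ℂ := fricke q (va a) (heckeDiagMatrix q • τ)

/-- `diag(q,1) γ = γ' diag(q,1)` for `γ ∈ Γ₀(q)`, with `γ'` explicit -/
def conjQ (q : ℕ) (γ : SL(2, ℤ)) (e : ℤ) (he : γ 1 0 = q * e) : SL(2, ℤ) :=
  ⟨!![γ 0 0, q * γ 0 1; e, γ 1 1], by
    have hdet := γ.det_coe
    rw [Matrix.det_fin_two] at hdet
    rw [Matrix.det_fin_two_of]
    linear_combination hdet + (γ 0 1) * he⟩

theorem heckeDiag_mul_conjQ (γ : SL(2, ℤ)) (e : ℤ) (he : γ 1 0 = q * e) :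
    heckeDiagMatrix q * mapGL ℝ γ = mapGL ℝ (conjQ q γ e he) * heckeDiagMatrix q := by
  have hq : q ≠ 0 := NeZero.ne q
  ext i j
  fin_cases i <;> fin_cases j <;>
    simp [hq, conjQ, Matrix.mul_apply, Fin.sum_univ_two]
  all_goals first
    | (have := congrArg (Int.cast : ℤ → ℝ) he; push_cast at this ⊢; linear_combination this)
    | (have := congrArg (Int.cast : ℤ → ℝ) he; push_cast at this ⊢; linear_combination -this)
    | ring1

/-- **the transformation law under `Γ₀(q)`** -/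
theorem gA_smul (a : ℤ) (γ : SL(2, ℤ)) (hγ : (q : ℤ) ∣ γ 1 0) (τ : ℍ) :
    gA q a (γ • τ) = gA q (a * γ 0 0) τ := by
  obtain ⟨e, he⟩ := hγ
  have h2 : heckeDiagMatrix q • (γ • τ) = conjQ q γ e he • (heckeDiagMatrix q • τ) := by
    show heckeDiagMatrix q • ((mapGL ℝ γ : GL (Fin 2) ℝ) • τ) =
      (mapGL ℝ (conjQ q γ e he) : GL (Fin 2) ℝ) • (heckeDiagMatrix q • τ)
    rw [← mul_smul, ← mul_smul, heckeDiag_mul_conjQ]
  rw [gA, gA, h2, fricke_smul]
  refine congrFun (fricke_congr q fun i => ?_) _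
  fin_cases i
  · show (q : ℤ) ∣ rowMul (va a) (conjQ q γ e he) 0 - va (a * γ 0 0) 0
    rw [rowMul_zero]
    simp [conjQ]
  · show (q : ℤ) ∣ rowMul (va a) (conjQ q γ e he) 1 - va (a * γ 0 0) 1
    rw [rowMul_one]
    simp only [va_zero, va_one, conjQ, zero_mul, add_zero, sub_zero]
    exact ⟨a * γ 0 1, by simp; ring⟩

lemma gA_neg (a : ℤ) : gA q (-a) = gA q a := by
  funext τ
  have : va (-a) = -va a := by
    funext i
    fin_cases i <;> simp [va]
  rw [gA, gA, this, fricke_neg]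

lemma gA_congr {a a' : ℤ} (h : (q : ℤ) ∣ a' - a) : gA q a' = gA q a := by
  funext τ
  rw [gA, gA]
  refine congrFun (fricke_congr q fun i => ?_) _
  fin_cases i
  · exact h
  · show (q : ℤ) ∣ va a' 1 - va a 1
    simp

/-! ### weak holomorphy -/

theorem isWH0_gA_bot {a : ℤ} (ha : ¬ (q : ℤ) ∣ a) : IsWH0 ⊥ (gA q a) :=
  isWH0_bot_glTranslate (isIntMat_heckeDiagMatrix q)
    (WH0_mono bot_le (isWH0_fricke (nz_va ha)))

theorem isWH0_gA {N : ℕ} (hqN : q ∣ N) {a : ℤ} (ha : ¬ (q : ℤ) ∣ a) :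
    IsWH0 (pmGamma1 N) (gA q a) where
  mdiff := (isWH0_gA_bot ha).mdiff
  exists_bdd := (isWH0_gA_bot ha).exists_bdd
  smul_eq := by
    intro γ hγ z
    rw [mem_pmGamma1_iff_dvd] at hγ
    obtain ⟨h0, h1⟩ := hγ
    have hqN' : (q : ℤ) ∣ (N : ℤ) := Int.natCast_dvd_natCast.mpr hqN
    rw [gA_smul a γ (hqN'.trans h0)]
    have hdet := γ.det_coe
    rw [Matrix.det_fin_two] at hdet
    obtain ⟨k0, hk0⟩ := hqN'.trans h0
    rcases h1 with h1 | h1
    · obtain ⟨k1, hk1⟩ := hqN'.trans h1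
      refine congrFun (gA_congr ?_) z
      refine ⟨a * (γ 0 1 * k0 - γ 0 0 * k1), ?_⟩
      have e1 : γ 1 1 = 1 + q * k1 := by linarith
      rw [e1, hk0] at hdet
      linear_combination a * hdet
    · obtain ⟨k1, hk1⟩ := hqN'.trans h1
      rw [← gA_neg a]
      refine congrFun (gA_congr ?_) z
      refine ⟨a * (γ 0 0 * k1 - γ 0 1 * k0), ?_⟩
      have e1 : γ 1 1 = -1 + q * k1 := by linarith
      rw [e1, hk0] at hdet
      linear_combination (-a) * hdet

/-! ### the resolvent sums -/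

/-- the resolvent `Y = ∑_{0 < a < q} c_a g_a` -/
def resY (q : ℕ) (c : ℕ → ℂ) (τ : ℍ) : ℂ := ∑ a ∈ Finset.Ico 1 q, c a * gA q (a : ℤ) τ

/-- `T = ∑_{0 < a < q} c_a ℘-part` (width `q`) -/
def resT (q : ℕ) (c : ℕ → ℂ) (τ : ℍ) : ℂ := ∑ a ∈ Finset.Ico 1 q, c a * pwOf q (a : ℤ) 0 τ

/-- the coefficients of the `q`-expansion of `T (q τ)` -/
def resCoeff (q : ℕ) (c : ℕ → ℂ) (n : ℕ) : ℂ := ∑ a ∈ Finset.Ico 1 q, c a * pwCoeff q a 0 n

lemma not_dvd_of_mem_Ico {a : ℕ} (ha : a ∈ Finset.Ico 1 q) : ¬ (q : ℤ) ∣ (a : ℤ) := by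
  rw [Finset.mem_Ico] at ha
  intro h
  have := Nat.le_of_dvd (by omega) (Int.natCast_dvd_natCast.mp h)
  omega

theorem isWH0_resY {N : ℕ} (hqN : q ∣ N) (c : ℕ → ℂ) : IsWH0 (pmGamma1 N) (resY q c) := by
  have h : ∀ s : Finset ℕ, (∀ a ∈ s, a ∈ Finset.Ico 1 q) →
      (fun τ : ℍ => ∑ a ∈ s, c a * gA q (a : ℤ) τ) ∈ WH0 (pmGamma1 N) := by
    intro s
    induction s using Finset.induction_on with
    | empty =>
      intro _
      simp only [Finset.sum_empty]
      exact (WH0 (pmGamma1 N)).zero_mem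
    | insert a s has ih =>
      intro hs
      have h1 : (fun τ : ℍ => ∑ b ∈ insert a s, c b * gA q (b : ℤ) τ) =
          (algebraMap ℂ (ℍ → ℂ) (c a)) * gA q (a : ℤ) +
            (fun τ : ℍ => ∑ b ∈ s, c b * gA q (b : ℤ) τ) := by
        funext τ
        rw [Finset.sum_insert has]
        rfl
      rw [h1]
      refine (WH0 (pmGamma1 N)).add_mem ((WH0 (pmGamma1 N)).mul_mem
        ((WH0 (pmGamma1 N)).algebraMap_mem _) ?_) (ih fun b hb => hs b (Finset.mem_insert_of_mem hb))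
      exact isWH0_gA hqN (not_dvd_of_mem_Ico (hs a (Finset.mem_insert_self a s)))
  exact h _ fun a ha => ha

/-- the product formula -/
theorem resY_mul_discriminant (c : ℕ → ℂ) (τ : ℍ) :
    resY q c τ * Δ (heckeDiagMatrix q • τ) =
      E₄ (heckeDiagMatrix q • τ) * E₆ (heckeDiagMatrix q • τ) *
        resT q c (heckeDiagMatrix q • τ) := by
  rw [resY, resT, Finset.sum_mul, Finset.mul_sum]
  refine Finset.sum_congr rfl fun a ha => ?_
  have hna := not_dvd_of_mem_Ico ha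
  have h := fricke_mul_discriminant (nz_va hna) (heckeDiagMatrix q • τ)
  rw [Finset.mem_Ico] at ha
  have e0 : va (a : ℤ) 0 % (q : ℤ) = (a : ℤ) := by
    rw [va_zero]
    exact Int.emod_eq_of_lt (Int.natCast_nonneg a) (by exact_mod_cast ha.2)
  have e1 : va (a : ℤ) 1 % (q : ℤ) = 0 := by rw [va_one, Int.zero_emod]
  rw [e0, e1] at h
  rw [gA, mul_assoc, h]
  ring

/-! ### the `q`-expansion -/

/-- the scaling map `τ ↦ q τ` -/
abbrev scl (q : ℕ) (τ : ℍ) : ℍ := heckeDiagMatrix q • τ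

lemma coe_scl (τ : ℍ) : ((scl q τ : ℍ) : ℂ) = (q : ℂ) * τ :=
  coe_heckeDiagMatrix_smul (NeZero.ne q) τ

lemma isHolPerBdd_resT (c : ℕ → ℂ) : IsHolPerBdd (q : ℝ) (resT q c) := by
  have h : ∀ s : Finset ℕ, (∀ a ∈ s, a ∈ Finset.Ico 1 q) →
      IsHolPerBdd (q : ℝ) (fun τ : ℍ => ∑ a ∈ s, c a * pwOf q (a : ℤ) 0 τ) := by
    intro s
    induction s using Finset.induction_on with
    | empty =>
      intro _
      simp only [Finset.sum_empty]
      exact IsHolPerBdd.const _ 0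
    | insert a s has ih =>
      intro hs
      have h1 : (fun τ : ℍ => ∑ b ∈ insert a s, c b * pwOf q (b : ℤ) 0 τ) =
          (fun _ : ℍ => c a) * (fun τ : ℍ => pwOf q (a : ℤ) 0 τ) +
            (fun τ : ℍ => ∑ b ∈ s, c b * pwOf q (b : ℤ) 0 τ) := by
        funext τ
        rw [Finset.sum_insert has]
        rfl
      rw [h1]
      have ha := hs a (Finset.mem_insert_self a s)
      rw [Finset.mem_Ico] at ha
      refine ((IsHolPerBdd.const _ (c a)).mul (isHolPerBdd_pwOf ha.2 0 ?_)).add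
        (ih fun b hb => hs b (Finset.mem_insert_of_mem hb))
      rintro ⟨h0, -⟩
      have : a = 0 := by exact_mod_cast h0
      omega
  exact h _ fun a ha => ha

lemma isHolPerBdd_resT_scl (c : ℕ → ℂ) : IsHolPerBdd 1 (fun τ : ℍ => resT q c (scl q τ)) where
  holo := (Hol.comp (heckeDiagMatrix q) (isIntMat_heckeDiagMatrix q).det_pos
    ⟨resT q c, (isHolPerBdd_resT c).holo⟩).2
  periodic := by
    apply periodic_comp_ofComplex_of_vadd
    intro τ
    have e : scl q ((1 : ℝ) +ᵥ τ) = (q : ℝ) +ᵥ scl q τ := by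
      apply UpperHalfPlane.ext
      rw [coe_scl, UpperHalfPlane.coe_vadd, UpperHalfPlane.coe_vadd, coe_scl]
      push_cast
      ring
    show resT q c (scl q ((1 : ℝ) +ᵥ τ)) = resT q c (scl q τ)
    rw [e]
    exact vadd_of_periodic_comp_ofComplex (isHolPerBdd_resT c).periodic _
  bdd := by
    have hb := (isHolPerBdd_resT (q := q) c).bdd
    rw [UpperHalfPlane.isBoundedAtImInfty_iff] at hb ⊢
    obtain ⟨M, A, hMA⟩ := hb
    refine ⟨M, max A 0, fun z hz => hMA _ ?_⟩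
    have him : (scl q z).im = (q : ℝ) * z.im := by
      have := congrArg Complex.im (coe_scl (q := q) z)
      simpa using this
    rw [him]
    have h1 : (1 : ℝ) ≤ (q : ℝ) := by exact_mod_cast NeZero.one_le
    have h2 : 0 ≤ z.im := z.im_pos.le
    nlinarith [le_max_left A 0, le_max_right A 0]

theorem hasSum_resT_scl (c : ℕ → ℂ) (τ : ℍ) :
    HasSum (fun n : ℕ => resCoeff q c n • 𝕢 (1 : ℝ) (τ : ℂ) ^ n) (resT q c (scl q τ)) := by
  have hq0 : (q : ℂ) ≠ 0 := Nat.cast_ne_zero.2 (NeZero.ne q)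
  have e : ((scl q τ : ℍ) : ℂ) / q = τ := by
    rw [coe_scl, mul_div_cancel_left₀ _ hq0]
  have h : ∀ a ∈ Finset.Ico 1 q, HasSum (fun n : ℕ => c a * (pwCoeff q a 0 n * ee (τ : ℂ) ^ n))
      (c a * pwOf q (a : ℤ) 0 (scl q τ)) := by
    intro a ha
    rw [Finset.mem_Ico] at ha
    have := hasSum_pwOf ha.2 0 (scl q τ)
    rw [e] at this
    exact this.mul_left (c a)
  have h2 := hasSum_sum h
  rw [qParam_one]
  refine h2.congr_fun fun n => ?_
  rw [resCoeff, smul_eq_mul, Finset.sum_mul]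
  exact Finset.sum_congr rfl fun a _ => by ring

theorem qExpansion_resT_scl (c : ℕ → ℂ) :
    qExpansion 1 (fun τ : ℍ => resT q c (scl q τ)) = PowerSeries.mk (resCoeff q c) :=
  qExpansion_eq_of_hasSum one_pos ((isHolPerBdd_resT_scl c).analyticAt one_pos)
    (hasSum_resT_scl c)

/-- **the `q`-expansion of the resolvent**:
`qExp(Y) · qExp(Δ)(q^q) = qExp(E₄E₆)(q^q) · ∑ c_n qⁿ`. -/
theorem laurentExp_resY {N : ℕ} (hqN : q ∣ N) (c : ℕ → ℂ) :
    laurentExp 1 (resY q c) * qExpand ℂ q serD =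
      qExpand ℂ q serE * HahnSeries.ofPowerSeries ℤ ℂ (PowerSeries.mk (resCoeff q c)) := by
  obtain ⟨m, hm⟩ := mem_merRing_of_mem_WH0_width (pmGamma1 N) 1 (T_pow_one_mem_pmGamma1 N)
    (isWH0_resY hqN c)
  have hm' : IsMeroAtInfty 1 m (resY q c) := by
    have h := hm
    rw [Nat.cast_one] at h
    exact h
  have hΔ0 : IsMeroAtInfty 1 0 (fun τ : ℍ => Δ τ) :=
    IsMeroAtInfty.of_isHolPerBdd isHolPerBdd_discriminant
  have hE0 : IsMeroAtInfty 1 0 ((E₄ : ℍ → ℂ) * (E₆ : ℍ → ℂ)) :=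
    IsMeroAtInfty.of_isHolPerBdd (isHolPerBdd_E₄.mul isHolPerBdd_E₆)
  have hq : 0 < q := NeZero.pos q
  have hΔs := isMeroAtInfty_scale hq hΔ0 (scl q) (fun τ => coe_scl τ)
  have hEs := isMeroAtInfty_scale hq hE0 (scl q) (fun τ => coe_scl τ)
  have hfun : resY q c * ((fun τ : ℍ => Δ τ) ∘ scl q) =
      (((E₄ : ℍ → ℂ) * (E₆ : ℍ → ℂ)) ∘ scl q) * (fun τ : ℍ => resT q c (scl q τ)) := by
    funext τ
    simp only [Pi.mul_apply, Function.comp_apply]
    exact resY_mul_discriminant c τ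
  have h3 := congrArg (laurentExp 1) hfun
  rw [laurentExp_mul one_pos hm' hΔs,
    laurentExp_mul one_pos hEs (IsMeroAtInfty.of_isHolPerBdd (isHolPerBdd_resT_scl c)),
    laurentExp_scale hΔ0 (scl q) (fun τ => coe_scl τ),
    laurentExp_scale hE0 (scl q) (fun τ => coe_scl τ),
    laurentExp_discriminant, laurentExp_E₄_mul_E₆,
    laurentExp_of_isHolPerBdd one_pos (isHolPerBdd_resT_scl c), qExpansion_resT_scl] at h3
  exact h3

end Fermat.Agent.S43lib.LGC.KCM
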