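/-
Project H (S43) / LGC / KCM / SharpCoeff   (helper2)

The `q`-expansion coefficients of the `(a,0)`-resolvent of an even nontrivial character `ψ` of
`(ℤ/q)ˣ`: `∑_{0<a<q} ψ(a) pwCoeff q a 0 n = 2 ∑_{d m = n} ψ(d) m`.
-/
import Mathlib
import Fermat.Agent.S43lib.LGC.KCM.Series
import Fermat.Agent.S43lib.LGC.KCM.SharpAn

set_option autoImplicit false
set_option linter.unusedSectionVars false
set_option linter.style.haveILetI false

noncomputable section

namespace Fermat.Agent.S43lib.LGC.KCM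

open Fermat.Agent.S48lib.X1 Fermat.Agent.S48lib.X1.Wp

variable {q : ℕ} [hq : Fact q.Prime]

instance neZero_of_fact_prime : NeZero q := ⟨hq.out.ne_zero⟩

lemma zOf_zero' : zOf q 0 = 1 := by
  rw [zOf]
  simp [ee]

theorem resCoeff_chi_zero {ψ : MulChar (ZMod q) ℂ} (hψ : ψ ≠ 1) :
    resCoeff q (chi ψ) 0 = 0 := by
  rw [resCoeff]
  have h : ∀ a ∈ Finset.Ico 1 q, chi ψ a * pwCoeff q a 0 0 = chi ψ a * (1 / 12) := by
    intro a ha
    rw [Finset.mem_Ico] at ha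
    rw [pwCoeff, if_pos rfl, if_neg (by omega), add_zero]
  rw [Finset.sum_congr rfl h, ← Finset.sum_mul, sum_Ico_chi hψ, zero_mul]

theorem resCoeff_chi {ψ : MulChar (ZMod q) ℂ} (hψ : ψ ≠ 1) (heven : ψ (-1) = 1) {n : ℕ}
    (hn : n ≠ 0) : resCoeff q (chi ψ) n = 2 * eisCoeff (chi ψ) n := by
  have hneg : ∀ d : ℕ, ψ (-(d : ZMod q)) = chi ψ d := by
    intro d
    rw [← neg_one_mul, map_mul, heven, one_mul, chi]
  rw [resCoeff, eisCoeff, Finset.mul_sum]
  have h : ∀ a ∈ Finset.Ico 1 q, chi ψ a * pwCoeff q a 0 n =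
      ∑ x ∈ n.divisorsAntidiagonal, (x.2 : ℂ) * (chi ψ a * ind1 q a x.1 + chi ψ a * ind2 q a x.1
        - 2 * (chi ψ a * ind3 q x.1)) := by
    intro a _
    rw [pwCoeff, if_neg hn, Finset.mul_sum]
    refine Finset.sum_congr rfl fun x _ => ?_
    rw [lamG, zOf_zero']
    simp only [one_pow, inv_one, mul_one]
    ring
  rw [Finset.sum_congr rfl h, Finset.sum_comm]
  refine Finset.sum_congr rfl fun x _ => ?_
  rw [← Finset.mul_sum, Finset.sum_sub_distrib, Finset.sum_add_distrib, ← Finset.mul_sum]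
  have e1 : ∑ a ∈ Finset.Ico 1 q, chi ψ a * ind1 q a x.1 = chi ψ x.1 := by
    simp only [ind1]
    exact sum_Ico_chi_ind_sub ψ x.1
  have e2 : ∑ a ∈ Finset.Ico 1 q, chi ψ a * ind2 q a x.1 = chi ψ x.1 := by
    simp only [ind2]
    rw [sum_Ico_chi_ind_add ψ x.1, hneg]
  have e3 : ∑ a ∈ Finset.Ico 1 q, chi ψ a * ind3 q x.1 = 0 := by
    rw [← Finset.sum_mul, sum_Ico_chi hψ, zero_mul]
  rw [e1, e2, e3]
  ring

/-- the power series of the resolvent coefficients -/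
theorem mk_resCoeff_chi {ψ : MulChar (ZMod q) ℂ} (hψ : ψ ≠ 1) (heven : ψ (-1) = 1) :
    PowerSeries.mk (resCoeff q (chi ψ)) = 2 * eisSer (chi ψ) := by
  ext n
  have h2 : (2 : PowerSeries ℂ) = PowerSeries.C (2 : ℂ) := by rw [map_ofNat]
  rw [PowerSeries.coeff_mk, h2, PowerSeries.coeff_C_mul, coeff_eisSer]
  by_cases hn : n = 0
  · subst hn
    rw [resCoeff_chi_zero hψ, eisCoeff_zero, mul_zero]
  · exact resCoeff_chi hψ heven hn

end Fermat.Agent.S43lib.LGC.KCM
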