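/-
Project H (S43) / LGC / KCM / SharpDia   (helper2)

The transformation law of the `(a,0)`-resolvent `Y_ψ = ∑_{0<a<q} ψ(a) g_a` under `Γ₀(q)`:
`Y_ψ(γ τ) = ψ(γ₁₁) Y_ψ(τ)`.
-/
import Mathlib
import Fermat.Agent.S43lib.LGC.KCM.SharpCoeff

set_option autoImplicit false
set_option linter.unusedSectionVars false
set_option linter.style.haveILetI false

noncomputable section

namespace Fermat.Agent.S43lib.LGC.KCM

open UpperHalfPlane
open Fermat.Agent.S48lib.X1 Fermat.Agent.S48lib.X1.Wp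
open scoped MatrixGroups

variable {q : ℕ} [hq : Fact q.Prime]

/-- the resolvent as a sum over `ZMod q` -/
theorem resY_chi_eq_sum_zmod (ψ : MulChar (ZMod q) ℂ) (τ : ℍ) :
    resY q (chi ψ) τ = ∑ x : ZMod q, ψ x * gA q ((x.val : ℕ) : ℤ) τ := by
  rw [← sum_Ico_eq_sum_zmod ψ (fun x => gA q ((x.val : ℕ) : ℤ) τ), resY]
  refine Finset.sum_congr rfl fun a ha => ?_
  rw [Finset.mem_Ico] at ha
  rw [ZMod.val_cast_of_lt ha.2]

/-- **the transformation law of the resolvent** -/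
theorem resY_chi_smul (ψ : MulChar (ZMod q) ℂ) (γ : SL(2, ℤ)) (hγ : (q : ℤ) ∣ γ 1 0) (τ : ℍ) :
    resY q (chi ψ) (γ • τ) = ψ ((γ 1 1 : ℤ) : ZMod q) * resY q (chi ψ) τ := by
  have hdet := γ.det_coe
  rw [Matrix.det_fin_two] at hdet
  set u : ZMod q := ((γ 0 0 : ℤ) : ZMod q) with hu
  set v : ZMod q := ((γ 1 1 : ℤ) : ZMod q) with hv
  have huv : u * v = 1 := by
    have h0 : ((γ 1 0 : ℤ) : ZMod q) = 0 := (ZMod.intCast_zmod_eq_zero_iff_dvd _ _).mpr hγ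
    have := congrArg (fun z : ℤ => (z : ZMod q)) hdet
    simp only [Int.cast_sub, Int.cast_mul, Int.cast_one, h0, mul_zero, sub_zero] at this
    exact this
  have hu0 : u ≠ 0 := left_ne_zero_of_mul_eq_one huv
  rw [resY_chi_eq_sum_zmod, resY_chi_eq_sum_zmod, Finset.mul_sum]
  have h1 : ∀ x : ZMod q, gA q ((x.val : ℕ) : ℤ) (γ • τ) = gA q (((x * u).val : ℕ) : ℤ) τ := by
    intro x
    rw [gA_smul _ γ hγ]
    refine congrFun (gA_congr ?_) τ
    rw [← ZMod.intCast_zmod_eq_zero_iff_dvd]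
    push_cast
    rw [ZMod.natCast_zmod_val, ZMod.natCast_zmod_val, sub_self]
  simp only [h1]
  rw [← Equiv.sum_comp (Equiv.mulRight₀ u hu0) (fun y => ψ v * (ψ y * gA q ((y.val : ℕ) : ℤ) τ))]
  refine Finset.sum_congr rfl fun x _ => ?_
  show ψ x * gA q (((x * u).val : ℕ) : ℤ) τ = ψ v * (ψ (x * u) * gA q (((x * u).val : ℕ) : ℤ) τ)
  rw [← mul_assoc, ← map_mul, mul_comm v, mul_assoc, huv, mul_one]

end Fermat.Agent.S43lib.LGC.KCM
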