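/-
Project H (S43) / LGC / KCM / SharpMem   (helper2)

The formal series `h^♯_ψ = sharp q ψ` is (the `q`-expansion of) an element of the function field
`FBar₁(N)` of `X₁(N)`, `q ∣ N`, and it is an eigenvector of the diamond operators:
`⟨u⟩ h^♯_ψ = ψ(u) h^♯_ψ`.  Hence `h^♯_ψ ∈ F_H` for every `H ≤ ker ψ`.
-/
import Mathlib
import Fermat.Agent.S43lib.LGC.KCM.SharpDia
import Fermat.Agent.S43lib.Igusa.FixedX0
import Fermat.Agent.S16lib.M3.E6

set_option autoImplicit false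
set_option linter.unusedSectionVars false
set_option linter.style.haveILetI false

noncomputable section

namespace Fermat.Agent.S43lib.LGC.KCM

open UpperHalfPlane hiding I
open scoped MatrixGroups
open ModularCurve IntermediateField CongruenceSubgroup
open Fermat.Agent.ProgramR Fermat.Agent.ProgramR.QExp Fermat.Agent.ProgramR.BarField
open Fermat.Agent.S29lib.H
open Fermat.Agent.S48lib.X1 Fermat.Agent.S48lib.X1.Wp Fermat.Agent.S48lib.X1.HeckeJ
open Fermat.Agent.S48lib.X1.Forms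
open Fermat.Agent.S43lib.Igusa

local notation "Qb" => AlgebraicClosure ℚ

/-! ### the prefactor -/

theorem e6_eq : e6 = Fermat.Agent.S16lib.M3.eisenstein6 := rfl

theorem serD_eq : serD = HahnSeries.single (1 : ℤ) (1 : ℂ) *
    HahnSeries.ofPowerSeries ℤ ℂ (dedekindEtaUnit.map (Int.castRingHom ℂ)) := by
  rw [serD, qExpansion_discriminant, map_mul, HahnSeries.ofPowerSeries_X, etaProdC,
    dedekindEtaUnit, map_pow (PowerSeries.map (Int.castRingHom ℂ))]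

theorem serE_eq : serE =
    HahnSeries.ofPowerSeries ℤ ℂ ((eisenstein4 * e6).map (Int.castRingHom ℂ)) := by
  rw [serE, qExpansion_E₄, Fermat.Agent.S16lib.M3.qExpansion_E₆, ← map_mul, e6_eq,
    map_mul (PowerSeries.map (Int.castRingHom ℂ))]

theorem pref_mul_serD (q : ℕ) [NeZero q] : pref ℂ q * qExpand ℂ q serD = qExpand ℂ q serE := by
  have h1 : pref ℂ q = qExpand ℂ q (HahnSeries.single (-1 : ℤ) (1 : ℂ) *
      HahnSeries.ofPowerSeries ℤ ℂ
        ((eisenstein4 * e6 * dedekindEtaUnitInv).map (Int.castRingHom ℂ))) := by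
    rw [pref, qInv, lvl1, map_mul (qExpand ℂ q), qExpand_single, mul_neg, mul_one]
  rw [h1, ← map_mul, serD_eq, serE_eq]
  congr 1
  have h2 : (HahnSeries.single (-1 : ℤ) (1 : ℂ)) * HahnSeries.single (1 : ℤ) (1 : ℂ) = 1 := by
    rw [HahnSeries.single_mul_single]
    simp
  have h3 : (eisenstein4 * e6 * dedekindEtaUnitInv).map (Int.castRingHom ℂ) *
      dedekindEtaUnit.map (Int.castRingHom ℂ) = (eisenstein4 * e6).map (Int.castRingHom ℂ) := by
    rw [← map_mul, mul_assoc, mul_comm dedekindEtaUnitInv, dedekindEtaUnit_mul_inv, mul_one]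
  calc HahnSeries.single (-1 : ℤ) (1 : ℂ) * HahnSeries.ofPowerSeries ℤ ℂ
          ((eisenstein4 * e6 * dedekindEtaUnitInv).map (Int.castRingHom ℂ)) *
        (HahnSeries.single (1 : ℤ) (1 : ℂ) *
          HahnSeries.ofPowerSeries ℤ ℂ (dedekindEtaUnit.map (Int.castRingHom ℂ)))
      = (HahnSeries.single (-1 : ℤ) (1 : ℂ) * HahnSeries.single (1 : ℤ) (1 : ℂ)) *
          (HahnSeries.ofPowerSeries ℤ ℂ
            ((eisenstein4 * e6 * dedekindEtaUnitInv).map (Int.castRingHom ℂ)) *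
          HahnSeries.ofPowerSeries ℤ ℂ (dedekindEtaUnit.map (Int.castRingHom ℂ))) := by ring
    _ = _ := by rw [h2, one_mul, ← map_mul, h3]

theorem qExpand_serD_ne_zero (q : ℕ) [NeZero q] : qExpand ℂ q serD ≠ 0 := fun h =>
  serD_ne_zero ((qExpand_injective (R := ℂ) q) (h.trans (map_zero _).symm))

/-! ### membership in `FBar₁(N)` -/

variable {N : ℕ} [NeZero N] {q : ℕ} [hq : Fact q.Prime]

/-- the complexified character -/
abbrev psiC (ψ : MulChar (ZMod q) Qb) : MulChar (ZMod q) ℂ :=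
  ψ.ringHomComp (qbarEmb : Qb →+* ℂ)

lemma psiC_ne_one {ψ : MulChar (ZMod q) Qb} (hψ : ψ ≠ 1) : psiC ψ ≠ 1 :=
  (MulChar.ringHomComp_ne_one_iff (qbarEmb : Qb →+* ℂ).injective).mpr hψ

lemma psiC_neg_one {ψ : MulChar (ZMod q) Qb} (heven : ψ (-1) = 1) : psiC ψ (-1) = 1 := by
  show (qbarEmb : Qb →+* ℂ) (ψ (-1)) = 1
  rw [heven, map_one]

/-- the resolvent as an element of `WH0 (±Γ₁(N))` -/
def resW (hqN : q ∣ N) (ψ : MulChar (ZMod q) Qb) : WH0 (pmGamma1 N) :=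
  ⟨resY q (chi (psiC ψ)), isWH0_resY hqN _⟩

/-- **the `q`-expansion of the resolvent is `2 h^♯_ψ`** -/
theorem laurentExp_resY_chi (hqN : q ∣ N) {ψ : MulChar (ZMod q) Qb} (hψ : ψ ≠ 1)
    (heven : ψ (-1) = 1) :
    laurentExp 1 (resY q (chi (psiC ψ))) =
      coeffMap (qbarEmb : Qb →+* ℂ) (2 * sharp q (chi ψ)) := by
  have h := laurentExp_resY hqN (chi (psiC ψ))
  rw [mk_resCoeff_chi (psiC_ne_one hψ) (psiC_neg_one heven), ← pref_mul_serD] at h
  have h2 : coeffMap (qbarEmb : Qb →+* ℂ) (2 * sharp q (chi ψ)) =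
      pref ℂ q * HahnSeries.ofPowerSeries ℤ ℂ (2 * eisSer (chi (psiC ψ))) := by
    rw [map_mul, coeffMap_sharp, map_ofNat, sharp, map_mul (HahnSeries.ofPowerSeries ℤ ℂ),
      map_ofNat]
    have : (fun d => (qbarEmb : Qb →+* ℂ) (chi ψ d)) = chi (psiC ψ) := rfl
    rw [this]
    ring
  rw [h2]
  apply mul_right_cancel₀ (qExpand_serD_ne_zero q)
  rw [h]
  ring

/-- **`2 h^♯_ψ ∈ FBar₁(N)`**, and the comparison map sends it to the resolvent -/
theorem exists_two_mul_sharp_mem (hN : 1 < N) (hqN : q ∣ N) {ψ : MulChar (ZMod q) Qb}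
    (hψ : ψ ≠ 1) (heven : ψ (-1) = 1) :
    ∃ hy : 2 * sharp q (chi ψ) ∈ laurentBaseChange Qb (F1 N),
      (isAnModel_F1 (M := N)).toFunField (qbarEmb : Qb →+* ℂ) ⟨2 * sharp q (chi ψ), hy⟩ =
        algebraMap (WH0 (pmGamma1 N)) (WH0.FunField (pmGamma1 N)) (resW hqN ψ) := by
  refine (isAnModel_F1 (M := N)).exists_toFunField_eq qbarEmb (HeckeJ.generates_F1 hN) (jq_mem_F1 N)
    (algebraMap (WH0 (pmGamma1 N)) (WH0.FunField (pmGamma1 N)) (resW hqN ψ)) _ ?_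
  rw [qExpFFW_algebraMap, Nat.cast_one]
  exact laurentExp_resY_chi hqN hψ heven

theorem sharp_mem_FBar1 (hN : 1 < N) (hqN : q ∣ N) {ψ : MulChar (ZMod q) Qb}
    (hψ : ψ ≠ 1) (heven : ψ (-1) = 1) :
    sharp q (chi ψ) ∈ laurentBaseChange Qb (F1 N) := by
  obtain ⟨hy, -⟩ := exists_two_mul_sharp_mem hN hqN hψ heven
  have h2 : (2 : LaurentSeries Qb) ≠ 0 := by
    have : (2 : LaurentSeries Qb) = algebraMap Qb (LaurentSeries Qb) 2 := (map_ofNat _ 2).symm
    rw [this]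
    exact (map_ne_zero _).2 two_ne_zero
  have : sharp q (chi ψ) = (2 : LaurentSeries Qb)⁻¹ * (2 * sharp q (chi ψ)) := by
    rw [← mul_assoc, inv_mul_cancel₀ h2, one_mul]
  rw [this]
  exact mul_mem (inv_mem (ofNat_mem _ 2)) hy

/-! ### the diamond operators -/

/-- the character `ψ` on `(ℤ/N)ˣ` -/
def psiN (hqN : q ∣ N) (ψ : MulChar (ZMod q) Qb) (u : (ZMod N)ˣ) : Qb :=
  ψ (ZMod.castHom hqN (ZMod q) (u : ZMod N))

lemma psiN_mul (hqN : q ∣ N) (ψ : MulChar (ZMod q) Qb) (u v : (ZMod N)ˣ) :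
    psiN hqN ψ (u * v) = psiN hqN ψ u * psiN hqN ψ v := by
  rw [psiN, Units.val_mul, map_mul, map_mul]
  rfl

lemma psiN_one (hqN : q ∣ N) (ψ : MulChar (ZMod q) Qb) : psiN hqN ψ 1 = 1 := by
  rw [psiN, Units.val_one, map_one, map_one]

/-- `h^♯_ψ` as an element of `FBar₁(N)` -/
def sharpB (hN : 1 < N) (hqN : q ∣ N) {ψ : MulChar (ZMod q) Qb} (hψ : ψ ≠ 1)
    (heven : ψ (-1) = 1) : ↥(laurentBaseChange Qb (F1 N)) :=
  ⟨sharp q (chi ψ), sharp_mem_FBar1 hN hqN hψ heven⟩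

@[simp] lemma coe_sharpB (hN : 1 < N) (hqN : q ∣ N) {ψ : MulChar (ZMod q) Qb} (hψ : ψ ≠ 1)
    (heven : ψ (-1) = 1) :
    ((sharpB hN hqN hψ heven : ↥(laurentBaseChange Qb (F1 N))) : LaurentSeries Qb) =
      sharp q (chi ψ) := rfl

theorem toFunField_two_mul_sharpB (hN : 1 < N) (hqN : q ∣ N) {ψ : MulChar (ZMod q) Qb}
    (hψ : ψ ≠ 1) (heven : ψ (-1) = 1) :
    (isAnModel_F1 (M := N)).toFunField (qbarEmb : Qb →+* ℂ) (2 * sharpB hN hqN hψ heven) =
      algebraMap (WH0 (pmGamma1 N)) (WH0.FunField (pmGamma1 N)) (resW hqN ψ) := by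
  obtain ⟨hy, h⟩ := exists_two_mul_sharp_mem hN hqN hψ heven
  rw [← h]
  congr 1

/-- the analytic diamond on the resolvent -/
theorem diaWH0_resW (hqN : q ∣ N) (ψ : MulChar (ZMod q) Qb) {δ : SL(2, ℤ)}
    (hδ : (N : ℤ) ∣ δ 1 0) :
    diaWH0 δ (normalises_pmGamma1 hδ) (resW hqN ψ) =
      algebraMap ℂ (WH0 (pmGamma1 N)) (psiC ψ ((δ 1 1 : ℤ) : ZMod q)) * resW hqN ψ := by
  apply Subtype.ext
  funext z
  have hδq : (q : ℤ) ∣ δ 1 0 := (Int.natCast_dvd_natCast.mpr hqN).trans hδ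
  exact resY_chi_smul (psiC ψ) δ hδq z

/-- **`⟨u⟩ h^♯_ψ = ψ(u) h^♯_ψ`** -/
theorem diaU_sharpB (hN : 1 < N) (hqN : q ∣ N) {ψ : MulChar (ZMod q) Qb} (hψ : ψ ≠ 1)
    (heven : ψ (-1) = 1) (u : (ZMod N)ˣ) :
    diaU u (sharpB hN hqN hψ heven) =
      algebraMap Qb ↥(laurentBaseChange Qb (F1 N)) (psiN hqN ψ u) * sharpB hN hqN hψ heven := by
  set s := sharpB hN hqN hψ heven with hs
  have h2 : (2 : ↥(laurentBaseChange Qb (F1 N))) ≠ 0 := by
    have : (2 : ↥(laurentBaseChange Qb (F1 N))) = algebraMap Qb _ 2 := (map_ofNat _ 2).symm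
    rw [this]
    exact (map_ne_zero _).2 two_ne_zero
  have key : diaU u (2 * s) = algebraMap Qb ↥(laurentBaseChange Qb (F1 N)) (psiN hqN ψ u) * (2 * s) := by
    apply (isAnModel_F1 (M := N)).toFunField_injective (qbarEmb : Qb →+* ℂ)
    have hδ := dvd_deltaOf u
    rw [toFunField_diaU hδ u (cast_deltaOf u), hs, toFunField_two_mul_sharpB,
      diaFF_algebraMap, diaWH0_resW hqN ψ hδ, map_mul, map_mul, IsAnModel.toFunField_algebraMap,
      toFunField_two_mul_sharpB, ← IsScalarTower.algebraMap_apply]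
    congr 2
    show (qbarEmb : Qb →+* ℂ) (ψ ((deltaOf u 1 1 : ℤ) : ZMod q)) = _
    have e : ZMod.castHom hqN (ZMod q) (u : ZMod N) = ((deltaOf u 1 1 : ℤ) : ZMod q) := by
      rw [← cast_deltaOf u, map_intCast]
    rw [psiN, e]
  rw [map_mul, map_ofNat] at key
  apply mul_left_cancel₀ h2
  rw [key]
  ring

end Fermat.Agent.S43lib.LGC.KCM
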