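/-
Project H (S43) / LGC / KCM / Setup   (helper2)

The Kummer datum of `X_H(M q) → X₀(M q)` in the vocabulary of `Igusa/**` (helper9):

* `psiU M q ψ : (ℤ/Mq)ˣ →* ℚ̄ˣ`, the character of `(ℤ/Mq)ˣ` attached to a multiplicative character `ψ`
  of `ℤ/q`; it factors through `(ℤ/q)ˣ` (`isQPart_psiU`);
* `IsOrd ψ e` : `ψ` has exact order `e`;
* `hSh M q ψ … : FBH (psiU M q ψ)`, the element `h^♯_ψ` of `F_H`, `H = ker ψ`, and its eigen-property
  `IsDiaEigen` (so that it is a Kummer generator of `F_H / FBar(M q)`).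
-/
import Mathlib
import Fermat.Agent.S43lib.LGC.KCM.SharpMem
import Fermat.Agent.S43lib.Igusa.WtildeH

set_option autoImplicit false
set_option linter.unusedSectionVars false
set_option linter.style.haveILetI false

noncomputable section

namespace Fermat.Agent.S43lib.LGC.KCM

open ModularCurve IntermediateField
open Fermat.Agent.ProgramR.BarField
open Fermat.Agent.S48lib.X1 Fermat.Agent.S48lib.X1.HeckeJ
open Fermat.Agent.S43lib.Igusa

local notation "Qb" => AlgebraicClosure ℚ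

variable (M q : ℕ) [NeZero M] [NeZero q] [hq : Fact q.Prime]

theorem dvd_level : q ∣ M * q := Dvd.intro_left M rfl

theorem one_lt_level : 1 < M * q := one_lt_mul_of_prime M q hq.out

/-- the character of `(ℤ/Mq)ˣ` attached to `ψ` -/
def psiU (ψ : MulChar (ZMod q) Qb) : (ZMod (M * q))ˣ →* Qbˣ :=
  ψ.toUnitHom.comp
    (Units.map ((ZMod.castHom (dvd_level M q) (ZMod q) : ZMod (M * q) →+* ZMod q) :
      ZMod (M * q) →* ZMod q))

variable {M q}

theorem coe_psiU (ψ : MulChar (ZMod q) Qb) (u : (ZMod (M * q))ˣ) :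
    ((psiU M q ψ u : Qbˣ) : Qb) = psiN (dvd_level M q) ψ u := by
  rw [psiU, MonoidHom.comp_apply, MulChar.coe_toUnitHom]
  rfl

theorem isQPart_psiU (ψ : MulChar (ZMod q) Qb) : IsQPart M q (psiU M q ψ) := by
  intro u hu
  apply Units.ext
  rw [coe_psiU, psiN, Units.val_one]
  have h1 : ZMod.castHom (dvd_level M q) (ZMod q) (u : ZMod (M * q)) = 1 := by
    rw [ZMod.castHom_apply, ← ZMod.natCast_val]
    have h2 := (ZMod.intCast_eq_intCast_iff _ _ q).mpr hu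
    rw [Int.cast_natCast, Int.cast_one] at h2
    exact h2
  rw [h1, map_one]

/-- `ψ` has exact order `e` -/
structure IsOrd (ψ : MulChar (ZMod q) Qb) (e : ℕ) : Prop where
  pos : 0 < e
  pow : ∀ a : (ZMod q)ˣ, ψ a ^ e = 1
  prim : ∃ a : (ZMod q)ˣ, IsPrimitiveRoot (ψ a) e

namespace IsOrd

variable {ψ : MulChar (ZMod q) Qb} {e : ℕ}

theorem ne_one (H : IsOrd ψ e) (he : 1 < e) : ψ ≠ 1 := by
  rintro rfl
  obtain ⟨a, ha⟩ := H.prim
  rw [MulChar.one_apply a.isUnit] at ha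
  have := ha.eq_orderOf
  rw [orderOf_one] at this
  omega

theorem even (H : IsOrd ψ e) (he : Odd e) : ψ (-1) = 1 := by
  have h1 : ψ (-1) ^ e = 1 := H.pow (-1)
  have h2 : ψ (-1) ^ 2 = 1 := by
    rw [← map_pow]
    simp
  have h3 : ψ (-1) ^ (Nat.gcd e 2) = 1 := by
    rw [← orderOf_dvd_iff_pow_eq_one]
    exact Nat.dvd_gcd (orderOf_dvd_of_pow_eq_one h1) (orderOf_dvd_of_pow_eq_one h2)
  have h4 : Nat.gcd e 2 = 1 := Nat.Coprime.gcd_eq_one (Nat.coprime_two_right.mpr he)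
  rwa [h4, pow_one] at h3

theorem inv (H : IsOrd ψ e) : IsOrd ψ⁻¹ e where
  pos := H.pos
  pow a := by
    rw [MulChar.inv_apply_eq_inv', inv_pow, H.pow a, inv_one]
  prim := by
    obtain ⟨a, ha⟩ := H.prim
    refine ⟨a, ?_⟩
    rw [MulChar.inv_apply_eq_inv']
    exact ha.inv

theorem psiU_pow (H : IsOrd ψ e) (u : (ZMod (M * q))ˣ) : psiU M q ψ u ^ e = 1 := by
  apply Units.ext
  rw [Units.val_pow_eq_pow_val, coe_psiU, Units.val_one]
  exact H.pow (Units.map ((ZMod.castHom (dvd_level M q) (ZMod q) : ZMod (M * q) →+* ZMod q) :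
      ZMod (M * q) →* ZMod q) u)

theorem psiU_prim (H : IsOrd ψ e) :
    ∃ u₀ : (ZMod (M * q))ˣ, IsPrimitiveRoot ((psiU M q ψ u₀ : Qbˣ) : Qb) e := by
  obtain ⟨a, ha⟩ := H.prim
  obtain ⟨u₀, hu₀⟩ := ZMod.unitsMap_surjective (dvd_level M q) a
  refine ⟨u₀, ?_⟩
  rw [coe_psiU, psiN]
  have : ZMod.castHom (dvd_level M q) (ZMod q) (u₀ : ZMod (M * q)) = (a : ZMod q) := by
    rw [← hu₀]
    rfl
  rw [this]
  exact ha

end IsOrd

/-! ### non-vanishing -/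

theorem constantCoeff_pref_series :
    PowerSeries.constantCoeff (eisenstein4 * e6 * dedekindEtaUnitInv) = 1 := by
  rw [map_mul, map_mul, constantCoeff_eisenstein4, constantCoeff_e6,
    constantCoeff_dedekindEtaUnitInv, one_mul, one_mul]

theorem pref_ne_zero (k : Type*) [Field k] (q : ℕ) [NeZero q] : pref k q ≠ 0 :=
  mul_ne_zero qInv_ne_zero (lvl1_ne_zero constantCoeff_pref_series)

theorem sharp_ne_zero {k : Type*} [Field k] (q : ℕ) [NeZero q] {χ : ℕ → k} (hχ : χ 1 = 1) :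
    sharp q χ ≠ 0 := by
  refine mul_ne_zero (pref_ne_zero k q) ?_
  intro h
  have h1 : (HahnSeries.ofPowerSeries ℤ k (eisSer χ)).coeff ((1 : ℕ) : ℤ) = 1 := by
    rw [HahnSeries.ofPowerSeries_apply_coeff, coeff_eisSer, eisCoeff]
    simp [hχ]
  rw [h] at h1
  exact zero_ne_one h1

theorem chi_one {R : Type*} [CommRing R] (ψ : MulChar (ZMod q) R) : chi ψ 1 = 1 := by
  rw [chi, Nat.cast_one, map_one]

/-! ### the Kummer generator in `F_H` -/

section Gen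

variable {ψ : MulChar (ZMod q) Qb}

theorem sharp_mem_FBH (hψ : ψ ≠ 1) (heven : ψ (-1) = 1) :
    sharp q (chi ψ) ∈ laurentBaseChange Qb (FH0 (psiU M q ψ).ker) := by
  refine (mem_laurentBaseChange_FH0_iff _).mpr
    ⟨sharp_mem_FBar1 (one_lt_level M q) (dvd_level M q) hψ heven, fun u hu => ?_⟩
  have h1 := diaU_sharpB (one_lt_level M q) (dvd_level M q) hψ heven u
  have h2 : psiN (dvd_level M q) ψ u = 1 := by
    rw [← coe_psiU, MonoidHom.mem_ker.mp hu, Units.val_one]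
  rw [h2, map_one, one_mul] at h1
  exact h1

/-- **`h^♯_ψ` as an element of `F_H`**, `H = ker ψ` -/
def hSh (hψ : ψ ≠ 1) (heven : ψ (-1) = 1) : FBH (psiU M q ψ) :=
  ⟨sharp q (chi ψ), sharp_mem_FBH hψ heven⟩

@[simp] theorem coe_hSh (hψ : ψ ≠ 1) (heven : ψ (-1) = 1) : ((hSh (M := M) hψ heven : FBH (psiU M q ψ)) : LaurentSeries Qb) =
    sharp q (chi ψ) := rfl

theorem inclH_hSh (hψ : ψ ≠ 1) (heven : ψ (-1) = 1) : inclH (psiU M q ψ).ker (hSh (M := M) hψ heven) =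
    sharpB (one_lt_level M q) (dvd_level M q) hψ heven := Subtype.ext rfl

theorem hSh_ne_zero (hψ : ψ ≠ 1) (heven : ψ (-1) = 1) : hSh (M := M) hψ heven ≠ 0 := by
  intro h
  have := congrArg (fun x : FBH (psiU M q ψ) => (x : LaurentSeries Qb)) h
  exact sharp_ne_zero q (chi_one ψ) this

/-- the eigen-property in `F_H` -/
theorem diaHHom_hSh (hψ : ψ ≠ 1) (heven : ψ (-1) = 1) (u : (ZMod (M * q))ˣ) :
    diaHHom (psiU M q ψ) u (hSh hψ heven) =
      algebraMap Qb (FBH (psiU M q ψ)) ((psiU M q ψ u : Qbˣ) : Qb) * hSh hψ heven := by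
  apply inclH_injective
  rw [inclH_diaHHom, map_mul, AlgHom.commutes, inclH_hSh, diaU_sharpB, coe_psiU]

theorem isDiaEigen_hSh {e : ℕ} (H : IsOrd ψ e) (hψ : ψ ≠ 1) (heven : ψ (-1) = 1) :
    IsDiaEigen (psiU M q ψ) e (hSh hψ heven) where
  pos := H.pos
  pow_eq_one := H.psiU_pow
  prim := H.psiU_prim
  ne_zero := hSh_ne_zero hψ heven
  eigen u := by
    rw [inclH_hSh, diaU_sharpB, coe_psiU]

/-! ### the generator for `ψ⁻¹`, inside `F_H` -/

theorem inv_ne_one (hψ : ψ ≠ 1) : ψ⁻¹ ≠ 1 := fun h => hψ (by rw [← inv_inv ψ, h, inv_one])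

theorem inv_even (heven : ψ (-1) = 1) : ψ⁻¹ (-1) = 1 := by
  rw [MulChar.inv_apply_eq_inv', heven, inv_one]

theorem psiN_inv (u : (ZMod (M * q))ˣ) :
    psiN (dvd_level M q) ψ⁻¹ u = (((psiU M q ψ u)⁻¹ : Qbˣ) : Qb) := by
  rw [psiN, MulChar.inv_apply_eq_inv', Units.val_inv_eq_inv_val, coe_psiU, psiN]

theorem sharp_inv_mem_FBH (hψ : ψ ≠ 1) (heven : ψ (-1) = 1) :
    sharp q (chi ψ⁻¹) ∈ laurentBaseChange Qb (FH0 (psiU M q ψ).ker) := by
  refine (mem_laurentBaseChange_FH0_iff _).mpr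
    ⟨sharp_mem_FBar1 (one_lt_level M q) (dvd_level M q) (inv_ne_one hψ) (inv_even heven),
      fun u hu => ?_⟩
  have h1 := diaU_sharpB (one_lt_level M q) (dvd_level M q) (inv_ne_one hψ) (inv_even heven) u
  have h2 : psiN (dvd_level M q) ψ⁻¹ u = 1 := by
    rw [psiN_inv, MonoidHom.mem_ker.mp hu, inv_one, Units.val_one]
  rw [h2, map_one, one_mul] at h1
  exact h1

/-- `h^♯_{ψ⁻¹}` as an element of `F_H`, `H = ker ψ` -/
def hShInv (hψ : ψ ≠ 1) (heven : ψ (-1) = 1) : FBH (psiU M q ψ) :=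
  ⟨sharp q (chi ψ⁻¹), sharp_inv_mem_FBH hψ heven⟩

@[simp] theorem coe_hShInv (hψ : ψ ≠ 1) (heven : ψ (-1) = 1) :
    ((hShInv (M := M) hψ heven : FBH (psiU M q ψ)) : LaurentSeries Qb) = sharp q (chi ψ⁻¹) := rfl

theorem inclH_hShInv (hψ : ψ ≠ 1) (heven : ψ (-1) = 1) :
    inclH (psiU M q ψ).ker (hShInv (M := M) hψ heven) =
      sharpB (one_lt_level M q) (dvd_level M q) (inv_ne_one hψ) (inv_even heven) := Subtype.ext rfl

theorem hShInv_ne_zero (hψ : ψ ≠ 1) (heven : ψ (-1) = 1) : hShInv (M := M) hψ heven ≠ 0 := by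
  intro h
  have := congrArg (fun x : FBH (psiU M q ψ) => (x : LaurentSeries Qb)) h
  exact sharp_ne_zero q (chi_one ψ⁻¹) this

theorem diaHHom_hShInv (hψ : ψ ≠ 1) (heven : ψ (-1) = 1) (u : (ZMod (M * q))ˣ) :
    diaHHom (psiU M q ψ) u (hShInv hψ heven) =
      algebraMap Qb (FBH (psiU M q ψ)) (((psiU M q ψ u)⁻¹ : Qbˣ) : Qb) * hShInv hψ heven := by
  apply inclH_injective
  rw [inclH_diaHHom, map_mul, AlgHom.commutes, inclH_hShInv, diaU_sharpB, psiN_inv]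

/-! ### the second generator `h₂ = w̃ h^♯_{ψ⁻¹}` -/

variable (hqM : ¬ q ∣ M)

/-- **`h₂ = w̃ (h^♯_{ψ⁻¹})`** -/
def hTwo (hψ : ψ ≠ 1) (heven : ψ (-1) = 1) : FBH (psiU M q ψ) :=
  wH hq.out hqM (isQPart_psiU ψ) (hShInv hψ heven)

theorem hTwo_ne_zero (hψ : ψ ≠ 1) (heven : ψ (-1) = 1) : hTwo hqM hψ heven ≠ 0 := by
  rw [hTwo]
  exact (map_ne_zero _).2 (hShInv_ne_zero hψ heven)

theorem diaHHom_hTwo (hψ : ψ ≠ 1) (heven : ψ (-1) = 1) (u : (ZMod (M * q))ˣ) :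
    diaHHom (psiU M q ψ) u (hTwo hqM hψ heven) =
      algebraMap Qb (FBH (psiU M q ψ)) ((psiU M q ψ u : Qbˣ) : Qb) * hTwo hqM hψ heven := by
  rw [hTwo, diaHHom_wH, diaHHom_hShInv, map_inv, inv_inv, map_mul, AlgEquiv.commutes]

theorem isDiaEigen_hTwo {e : ℕ} (H : IsOrd ψ e) (hψ : ψ ≠ 1) (heven : ψ (-1) = 1) :
    IsDiaEigen (psiU M q ψ) e (hTwo hqM hψ heven) where
  pos := H.pos
  pow_eq_one := H.psiU_pow
  prim := H.psiU_prim
  ne_zero := hTwo_ne_zero hqM hψ heven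
  eigen u := by
    rw [← inclH_diaHHom, diaHHom_hTwo, map_mul, AlgHom.commutes]

end Gen

end Fermat.Agent.S43lib.LGC.KCM
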