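/-
Project H (S43) / LGC / KCM / Gen   (helper2)

The two Kummer generators `h₁ = h^♯_ψ`, `h₂ = w̃ h^♯_{ψ⁻¹}` of `F_H / FBar(M q)` in the vocabulary of
`KC/Gauss.lean`: `u₁ = h₁ ^ e`, `u₂ = w_q (u₁(ψ⁻¹)) = h₂ ^ e`, `IsKummerGen e u_i h_i`, and
`h₂ = v h₁` with `v ∈ FBar(M q)`.
-/
import Mathlib
import Fermat.Agent.S43lib.LGC.KCM.Setup
import Fermat.Agent.S43lib.LGC.KC.Gauss

set_option autoImplicit false
set_option linter.unusedSectionVars false
set_option linter.style.haveILetI false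

noncomputable section

namespace Fermat.Agent.S43lib.LGC.KCM

open ModularCurve IntermediateField Polynomial
open Fermat.Agent.ProgramR.BarField Fermat.Agent.S18lib
open Fermat.Agent.S48lib.X1 Fermat.Agent.S48lib.X1.HeckeJ
open Fermat.Agent.S43lib.Igusa Fermat.Agent.S43lib.LGC.KC

local notation "Qb" => AlgebraicClosure ℚ

variable {M q : ℕ} [NeZero M] [NeZero q] [hq : Fact q.Prime]

/-- the `FBar(M q)`-algebra structure of `F_H` -/
instance instAlgebraFBH (ψ : MulChar (ZMod q) Qb) : Algebra (FBar (M * q)) (FBH (psiU M q ψ)) :=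
  algebraFH (psiU M q ψ) (one_lt_level M q)

instance instIsScalarTowerFBH (ψ : MulChar (ZMod q) Qb) :
    IsScalarTower Qb (FBar (M * q)) (FBH (psiU M q ψ)) :=
  isScalarTower_FH (psiU M q ψ) (one_lt_level M q)

theorem algebraMap_FBH_apply (ψ : MulChar (ZMod q) Qb) (x : FBar (M * q)) :
    algebraMap (FBar (M * q)) (FBH (psiU M q ψ)) x = inclFH (psiU M q ψ) (one_lt_level M q) x := rfl

theorem coe_algebraMap_FBH (ψ : MulChar (ZMod q) Qb) (x : FBar (M * q)) :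
    ((algebraMap (FBar (M * q)) (FBH (psiU M q ψ)) x : FBH (psiU M q ψ)) : LaurentSeries Qb) =
      (x : LaurentSeries Qb) := coe_inclFH _ _ x

variable {ψ : MulChar (ZMod q) Qb} {e : ℕ}

/-- `(h^♯_ψ) ^ e ∈ FBar(M q)` -/
theorem sharp_pow_mem (H : IsOrd ψ e) (hψ : ψ ≠ 1) (heven : ψ (-1) = 1) :
    sharp q (chi ψ) ^ e ∈ modularFunctionFieldBar (M * q) := by
  obtain ⟨u, hu⟩ := (isDiaEigen_hSh (M := M) H hψ heven).pow_mem_fullBar (one_lt_level M q)
  have := congrArg (fun x : FBH (psiU M q ψ) => (x : LaurentSeries Qb)) hu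
  simp only [SubmonoidClass.coe_pow, coe_hSh] at this
  rw [← this, algebraMap_FH_apply, coe_inclFH]
  exact u.2

/-- **`u₁ = (h^♯_ψ) ^ e`** -/
def uOne (H : IsOrd ψ e) (hψ : ψ ≠ 1) (heven : ψ (-1) = 1) : FBar (M * q) :=
  ⟨sharp q (chi ψ) ^ e, sharp_pow_mem H hψ heven⟩

@[simp] theorem coe_uOne (H : IsOrd ψ e) (hψ : ψ ≠ 1) (heven : ψ (-1) = 1) :
    ((uOne (M := M) H hψ heven : FBar (M * q)) : LaurentSeries Qb) = sharp q (chi ψ) ^ e := rfl

theorem hSh_pow (H : IsOrd ψ e) (hψ : ψ ≠ 1) (heven : ψ (-1) = 1) :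
    hSh (M := M) hψ heven ^ e = algebraMap (FBar (M * q)) (FBH (psiU M q ψ)) (uOne H hψ heven) := by
  apply Subtype.ext
  rw [coe_algebraMap_FBH, coe_uOne, SubmonoidClass.coe_pow, coe_hSh]

/-- **`h₁ = h^♯_ψ` is a Kummer generator of `F_H / FBar(M q)`** -/
theorem isKummerGen_hSh (H : IsOrd ψ e) (hψ : ψ ≠ 1) (heven : ψ (-1) = 1) :
    IsKummerGen e (uOne (M := M) H hψ heven) (hSh (M := M) hψ heven) where
  pos := H.pos
  pow_eq := hSh_pow (M := M) H hψ heven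
  gen f := (isDiaEigen_hSh (M := M) H hψ heven).exists_aeval_eq (one_lt_level M q) f
  dvd_of_aeval_eq_zero p hp :=
    (isDiaEigen_hSh (M := M) H hψ heven).dvd_of_aeval_eq_zero (one_lt_level M q)
      (hSh_pow (M := M) H hψ heven) p hp

/-! ### the second generator -/

variable (hqM : ¬ q ∣ M)

/-- **`u₂ = w_q (u₁(ψ⁻¹))`** -/
def uTwo (H : IsOrd ψ e) (hψ : ψ ≠ 1) (heven : ψ (-1) = 1) : FBar (M * q) :=
  Fermat.Agent.LSb.Val.wq M q hq.out hqM (uOne (M := M) H.inv (inv_ne_one hψ) (inv_even heven))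

theorem hShInv_pow (H : IsOrd ψ e) (hψ : ψ ≠ 1) (heven : ψ (-1) = 1) :
    hShInv (M := M) hψ heven ^ e = algebraMap (FBar (M * q)) (FBH (psiU M q ψ))
      (uOne (M := M) H.inv (inv_ne_one hψ) (inv_even heven)) := by
  apply Subtype.ext
  rw [coe_algebraMap_FBH, coe_uOne, SubmonoidClass.coe_pow, coe_hShInv]

theorem hTwo_pow (H : IsOrd ψ e) (hψ : ψ ≠ 1) (heven : ψ (-1) = 1) :
    hTwo hqM hψ heven ^ e =
      algebraMap (FBar (M * q)) (FBH (psiU M q ψ)) (uTwo hqM H hψ heven) := by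
  rw [hTwo, ← map_pow, hShInv_pow H hψ heven, algebraMap_FBH_apply, wH_inclFH, uTwo,
    algebraMap_FBH_apply]

/-- **`h₂ = w̃ h^♯_{ψ⁻¹}` is a Kummer generator of `F_H / FBar(M q)`** -/
theorem isKummerGen_hTwo (H : IsOrd ψ e) (hψ : ψ ≠ 1) (heven : ψ (-1) = 1) :
    IsKummerGen e (uTwo hqM H hψ heven) (hTwo hqM hψ heven) where
  pos := H.pos
  pow_eq := hTwo_pow hqM H hψ heven
  gen f := (isDiaEigen_hTwo hqM H hψ heven).exists_aeval_eq (one_lt_level M q) f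
  dvd_of_aeval_eq_zero p hp :=
    (isDiaEigen_hTwo hqM H hψ heven).dvd_of_aeval_eq_zero (one_lt_level M q)
      (hTwo_pow hqM H hψ heven) p hp

/-- **`h₂ = v h₁` with `v ∈ FBar(M q)ˣ`**: both are `ψ`-eigenvectors of the diamonds -/
theorem exists_ratio (hψ : ψ ≠ 1) (heven : ψ (-1) = 1) :
    ∃ v : FBar (M * q), v ≠ 0 ∧
      hTwo hqM hψ heven = algebraMap (FBar (M * q)) (FBH (psiU M q ψ)) v * hSh hψ heven := by
  have h0 := hSh_ne_zero (M := M) hψ heven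
  obtain ⟨c, hc⟩ := exists_inclFH_eq_of_fixed (psiU M q ψ) (one_lt_level M q)
    (hTwo hqM hψ heven * (hSh hψ heven)⁻¹) (fun u => by
      have hc0 : algebraMap Qb (FBH (psiU M q ψ)) ((psiU M q ψ u : Qbˣ) : Qb) ≠ 0 :=
        (_root_.map_ne_zero _).2 (Units.ne_zero _)
      rw [map_mul, map_inv₀, diaHHom_hTwo, diaHHom_hSh, mul_inv]
      field_simp)
  refine ⟨c, ?_, ?_⟩
  · rintro rfl
    rw [map_zero] at hc
    exact mul_ne_zero (hTwo_ne_zero hqM hψ heven) (inv_ne_zero h0) hc.symm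
  · rw [algebraMap_FBH_apply, hc, mul_assoc, inv_mul_cancel₀ h0, mul_one]

end Fermat.Agent.S43lib.LGC.KCM
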