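/-
Project H (S43) / LGC / KCM / Red   (helper2)

Reduction of the Kummer data modulo a valuation subring `A` of `ℚ̄` over `q`:

* the values of a multiplicative character lie in `A` (`psiA`), so `h^♯_ψ` has `A`-integral
  coefficients: `hSer A ψ : LaurentSeries A`, `toL = sharp q (chi ψ)`, `toK = sharp q (chi ψ̄)`;
* `u₁ ∈ D1.O`, `red₁ u₁ = (h̄^♯)^e`;  `u₂ ∈ D2.O`, `red₂ u₂ = (h̄^♯_{ψ⁻¹})^e`;
* the reduction of a primitive `e`-th root of unity, `q ∤ e`, is primitive;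
* **the power form of `ψ̄`**: `ψ̄(d) = d^m` with `m` even, `2 ≤ m ≤ q - 3`, and `e m = (q-1) j`,
  `gcd(j, e) = 1`.
-/
import Mathlib
import Fermat.Agent.S43lib.LGC.KCM.Gen
import Fermat.Agent.LSb.Unit.Instance

set_option autoImplicit false
set_option linter.unusedSectionVars false
set_option linter.style.haveILetI false

noncomputable section

namespace Fermat.Agent.S43lib.LGC.KCM

open ModularCurve IntermediateField Polynomial AlgebraicCurve
open Fermat.Agent.ProgramR.BarField Fermat.Agent.S18lib Fermat.Agent.LSb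
open Fermat.Agent.S48lib.X1 Fermat.Agent.S48lib.X1.HeckeJ
open Fermat.Agent.S43lib.Igusa Fermat.Agent.S43lib.LGC.KC

local notation "Qb" => AlgebraicClosure ℚ

variable {M q : ℕ} [NeZero M] [NeZero q] [hq : Fact q.Prime]
variable (A : ValuationSubring (AlgebraicClosure ℚ))

local notation "kA" => IsLocalRing.ResidueField A

/-! ### integrality of character values -/

theorem mem_of_pow_eq_one {x : Qb} {n : ℕ} (hn : 0 < n) (hx : x ^ n = 1) : x ∈ A := by
  rcases A.mem_or_inv_mem x with h | h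
  · exact h
  · have : x = x⁻¹ ^ (n - 1) := by
      have hx0 : x ≠ 0 := by
        rintro rfl
        rw [zero_pow hn.ne'] at hx
        exact zero_ne_one hx
      have h1 : x ^ (n - 1) * x = 1 := by rw [← pow_succ, Nat.sub_add_cancel hn, hx]
      rw [inv_pow]
      exact (eq_inv_of_mul_eq_one_right h1)
    rw [this]
    exact A.pow_mem h _

theorem mulChar_mem (ψ : MulChar (ZMod q) Qb) (a : ZMod q) : ψ a ∈ A := by
  by_cases ha : IsUnit a
  · refine mem_of_pow_eq_one A (n := q - 1) (Nat.sub_pos_of_lt hq.out.one_lt) ?_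
    rw [← map_pow]
    obtain ⟨u, rfl⟩ := ha
    rw [← Units.val_pow_eq_pow_val, ZMod.units_pow_card_sub_one_eq_one, Units.val_one, map_one]
  · rw [MulChar.map_nonunit ψ ha]
    exact A.zero_mem

/-- the character with values in `A` -/
def psiA (ψ : MulChar (ZMod q) Qb) : MulChar (ZMod q) ↥A where
  toFun a := ⟨ψ a, mulChar_mem A ψ a⟩
  map_one' := Subtype.ext (by simp)
  map_mul' a b := Subtype.ext (by simp)
  map_nonunit' a ha := Subtype.ext (by simpa using MulChar.map_nonunit ψ ha)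

@[simp] theorem coe_psiA (ψ : MulChar (ZMod q) Qb) (a : ZMod q) :
    ((psiA A ψ a : A) : Qb) = ψ a := rfl

theorem psiA_comp_subtype (ψ : MulChar (ZMod q) Qb) :
    (psiA A ψ).ringHomComp A.subtype = ψ := by
  ext a
  rfl

/-- the reduced character -/
def psiBar (ψ : MulChar (ZMod q) Qb) : MulChar (ZMod q) kA :=
  (psiA A ψ).ringHomComp (IsLocalRing.residue A)

theorem psiBar_apply (ψ : MulChar (ZMod q) Qb) (a : ZMod q) :
    psiBar A ψ a = IsLocalRing.residue A (psiA A ψ a) := rfl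

/-- the `A`-integral series `h^♯_ψ` -/
def hSer (ψ : MulChar (ZMod q) Qb) : LaurentSeries A := sharp q (chi (psiA A ψ))

theorem toL_hSer (ψ : MulChar (ZMod q) Qb) : V.toL A (hSer A ψ) = sharp q (chi ψ) := by
  rw [V.toL, hSer, coeffMap_sharp]
  rfl

theorem toK_hSer (ψ : MulChar (ZMod q) Qb) : V.toK A (hSer A ψ) = sharp q (chi (psiBar A ψ)) := by
  rw [V.toK, hSer, coeffMap_sharp]
  rfl

/-! ### reduction of `u₁`, `u₂` -/

section RedU

variable {A}
variable {ψ : MulChar (ZMod q) Qb} {e : ℕ}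
variable {D1 D2 : GaussDatum A (FBar (M * q)) (FRes A M)}

theorem uOne_eq (H : IsOrd ψ e) (hψ : ψ ≠ 1) (heven : ψ (-1) = 1)
    (hy : V.toL A (hSer A ψ ^ e) ∈ modularFunctionFieldBar (M * q)) :
    uOne (M := M) H hψ heven = (⟨V.toL A (hSer A ψ ^ e), hy⟩ : FBar (M * q)) := by
  apply Subtype.ext
  show sharp q (chi ψ) ^ e = V.toL A (hSer A ψ ^ e)
  rw [map_pow, toL_hSer]

theorem toL_hSer_pow_mem (H : IsOrd ψ e) (hψ : ψ ≠ 1) (heven : ψ (-1) = 1) :
    V.toL A (hSer A ψ ^ e) ∈ modularFunctionFieldBar (M * q) := by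
  rw [map_pow, toL_hSer]
  exact sharp_pow_mem H hψ heven

/-- **`u₁ ∈ D1.O`** -/
theorem uOne_mem (h1 : Old.IsGaussOne D1) (H : IsOrd ψ e) (hψ : ψ ≠ 1) (heven : ψ (-1) = 1) :
    uOne (M := M) H hψ heven ∈ D1.O := by
  rw [uOne_eq H hψ heven (toL_hSer_pow_mem H hψ heven)]
  exact h1.mem _ _

/-- **`red₁ u₁ = (h̄^♯_ψ)^e`** -/
theorem coe_redF_uOne (h1 : Old.IsGaussOne D1) (H : IsOrd ψ e) (hψ : ψ ≠ 1)
    (heven : ψ (-1) = 1) :
    ((D1.redF (uOne (M := M) H hψ heven) : FRes A M) : LaurentSeries kA) =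
      sharp q (chi (psiBar A ψ)) ^ e := by
  rw [uOne_eq H hψ heven (toL_hSer_pow_mem H hψ heven), h1.red, map_pow, toK_hSer]

variable (hqM : ¬ q ∣ M)

/-- **`u₂ ∈ D2.O`** -/
theorem uTwo_mem (h1 : Old.IsGaussOne D1) (h2 : Old.IsGaussTwo D1 D2 (Unit.wqR M q hqM))
    (H : IsOrd ψ e) (hψ : ψ ≠ 1) (heven : ψ (-1) = 1) :
    uTwo hqM H hψ heven ∈ D2.O := by
  rw [h2.mem_iff, uTwo]
  show Val.wq M q hq.out hqM (Val.wq M q hq.out hqM _) ∈ D1.O
  rw [Val.wq_wq]
  exact uOne_mem h1 H.inv (inv_ne_one hψ) (inv_even heven)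

/-- **`red₂ u₂ = red₁ (u₁(ψ⁻¹))`** -/
theorem redF_uTwo (h2 : Old.IsGaussTwo D1 D2 (Unit.wqR M q hqM))
    (H : IsOrd ψ e) (hψ : ψ ≠ 1) (heven : ψ (-1) = 1) :
    D2.redF (uTwo hqM H hψ heven) =
      D1.redF (uOne (M := M) H.inv (inv_ne_one hψ) (inv_even heven)) := by
  rw [h2.redF, uTwo]
  show D1.redF (Val.wq M q hq.out hqM (Val.wq M q hq.out hqM _)) = _
  rw [Val.wq_wq]

end RedU

end Fermat.Agent.S43lib.LGC.KCM
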