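/-
Project H (S43) / LGC / KCM / PowForm   (helper2)

* `isPrimitiveRoot_residue` : the reduction of a primitive `e`-th root of unity, `e` prime to the
  residue characteristic, is a primitive `e`-th root of unity;
* **`exists_pow_form`** : the reduction `ψ̄` of a character `ψ` of `(ℤ/q)ˣ` of exact order `e > 1`, `ψ`
  even, is `d ↦ d^m` with `m` even, `2 ≤ m ≤ q - 3`, `e m = (q-1) j`, `gcd(j, e) = 1`.
-/
import Mathlib
import Fermat.Agent.S43lib.LGC.KCM.Red

set_option autoImplicit false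
set_option linter.unusedSectionVars false
set_option linter.style.haveILetI false

noncomputable section

namespace Fermat.Agent.S43lib.LGC.KCM

open Fermat.Agent.S18lib Fermat.Agent.LSb

local notation "Qb" => AlgebraicClosure ℚ

variable {q : ℕ} [NeZero q] [hq : Fact q.Prime]
variable {A : ValuationSubring (AlgebraicClosure ℚ)}

local notation "kA" => IsLocalRing.ResidueField A

/-- the reduction of a primitive root of unity of order prime to the residue characteristic is
primitive -/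
theorem isPrimitiveRoot_residue {ζ : A} {e : ℕ} (he : 0 < e)
    (hζ : IsPrimitiveRoot ((ζ : A) : Qb) e) (hek : ((e : ℕ) : kA) ≠ 0) :
    IsPrimitiveRoot (IsLocalRing.residue A ζ) e := by
  have hζA : ζ ^ e = 1 := Subtype.ext (by
    rw [SubmonoidClass.coe_pow]
    exact hζ.pow_eq_one)
  have hxe : IsLocalRing.residue A ζ ^ e = 1 := by rw [← map_pow, hζA, map_one]
  have hd : orderOf (IsLocalRing.residue A ζ) ∣ e := orderOf_dvd_of_pow_eq_one hxe
  have hd0 : 0 < orderOf (IsLocalRing.residue A ζ) := Nat.pos_of_dvd_of_pos hd he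
  by_cases hde : orderOf (IsLocalRing.residue A ζ) = e
  · rw [← hde]
    exact IsPrimitiveRoot.orderOf _
  · exfalso
    obtain ⟨n, hn⟩ := hd
    have hn1 : 1 < n := by
      rcases n with _ | _ | n
      · rw [mul_zero] at hn; omega
      · rw [zero_add, mul_one] at hn; exact absurd hn.symm hde
      · omega
    have hη : IsPrimitiveRoot (((ζ : A) : Qb) ^ orderOf (IsLocalRing.residue A ζ)) n := by
      have := hζ.pow_of_dvd hd0.ne' ⟨n, hn⟩
      rwa [hn, Nat.mul_div_cancel_left n hd0] at this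
    have hsum := hη.geom_sum_eq_zero hn1
    have hsumA : ∑ i ∈ Finset.range n, (ζ ^ orderOf (IsLocalRing.residue A ζ)) ^ i = 0 :=
      Subtype.ext (by
        push_cast
        exact hsum)
    have hres := congrArg (IsLocalRing.residue A) hsumA
    rw [map_sum, map_zero] at hres
    simp only [map_pow, pow_orderOf_eq_one, one_pow, Finset.sum_const, Finset.card_range,
      nsmul_eq_mul, mul_one] at hres
    apply hek
    rw [hn, Nat.cast_mul, hres, mul_zero]

/-- the order of a character divides `q - 1` -/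
theorem IsOrd.dvd_sub_one {ψ : MulChar (ZMod q) Qb} {e : ℕ} (H : IsOrd ψ e) : e ∣ q - 1 := by
  obtain ⟨a, ha⟩ := H.prim
  apply ha.dvd_of_pow_eq_one
  rw [← map_pow, ← Units.val_pow_eq_pow_val, ZMod.units_pow_card_sub_one_eq_one, Units.val_one,
    map_one]

theorem IsOrd.natCast_ne_zero (hA : A.LiesOverPrime q) {ψ : MulChar (ZMod q) Qb} {e : ℕ}
    (H : IsOrd ψ e) : ((e : ℕ) : kA) ≠ 0 := by
  have := Old.charP_kRes hA
  intro h0
  have h1 : q ∣ e := (CharP.cast_eq_zero_iff kA q e).mp h0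
  have h2 : q ∣ q - 1 := h1.trans H.dvd_sub_one
  have h3 := Nat.le_of_dvd (Nat.sub_pos_of_lt hq.out.one_lt) h2
  have := hq.out.one_lt
  omega

/-- **the power form of the reduced character** -/
theorem exists_pow_form (hA : A.LiesOverPrime q) (hq2 : q ≠ 2) {ψ : MulChar (ZMod q) Qb} {e : ℕ}
    (H : IsOrd ψ e) (he1 : 1 < e) (heven : ψ (-1) = 1) :
    ∃ m j : ℕ, Even m ∧ 2 ≤ m ∧ m + 3 ≤ q ∧ e * m = (q - 1) * j ∧ Nat.Coprime j e ∧
      ∀ d : ℕ, chi (psiBar A ψ) d = ((d : ℕ) : kA) ^ m := by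
  classical
  haveI := Old.charP_kRes hA
  have hq1 : 0 < q - 1 := Nat.sub_pos_of_lt hq.out.one_lt
  -- a generator of `(ℤ/q)ˣ`
  obtain ⟨g, hg⟩ := IsCyclic.exists_generator (α := (ZMod q)ˣ)
  have hgo : orderOf g = q - 1 := by
    rw [orderOf_eq_card_of_forall_mem_zpowers hg, Nat.card_eq_fintype_card, ZMod.card_units]
  have hpow : ∀ a : (ZMod q)ˣ, ∃ n : ℕ, g ^ n = a := fun a =>
    (Submonoid.mem_powers_iff _ _).mp (mem_powers_iff_mem_zpowers.mpr (hg a))
  -- the Teichmüller character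
  set ι : ZMod q →+* kA := ZMod.castHom (dvd_refl q) kA with hι
  have hιinj : Function.Injective ι := ZMod.castHom_injective kA
  set z : kA := ι (g : ZMod q) with hz
  have hzo : orderOf z = q - 1 := by
    have h1 := orderOf_injective (ι : ZMod q →* kA) hιinj (g : ZMod q)
    rw [orderOf_units, hgo] at h1
    exact h1
  have hzprim : IsPrimitiveRoot z (q - 1) := hzo ▸ IsPrimitiveRoot.orderOf z
  -- the value of `ψ̄` at the generator
  set w : kA := psiBar A ψ (g : ZMod q) with hw
  have hwq : w ^ (q - 1) = 1 := by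
    rw [hw, ← map_pow, ← Units.val_pow_eq_pow_val, ZMod.units_pow_card_sub_one_eq_one,
      Units.val_one, map_one]
  haveI : NeZero (q - 1) := ⟨hq1.ne'⟩
  obtain ⟨m, hmlt, hm⟩ := hzprim.eq_pow_of_pow_eq_one hwq
  -- `ψ(g)` is a primitive `e`-th root of unity
  have hψg : IsPrimitiveRoot (ψ (g : ZMod q)) e := by
    obtain ⟨a, ha⟩ := H.prim
    obtain ⟨n, rfl⟩ := hpow a
    have h1 : orderOf (ψ (g : ZMod q)) ∣ e := orderOf_dvd_of_pow_eq_one (H.pow g)
    have h2 : e ∣ orderOf (ψ (g : ZMod q)) := by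
      have h3 : orderOf (ψ (g : ZMod q) ^ n) ∣ orderOf (ψ (g : ZMod q)) := orderOf_pow_dvd n
      rw [← map_pow, ← Units.val_pow_eq_pow_val, ← ha.eq_orderOf] at h3
      exact h3
    rw [Nat.dvd_antisymm h2 h1]
    exact IsPrimitiveRoot.orderOf _
  have hwprim : IsPrimitiveRoot w e := by
    rw [hw, psiBar_apply]
    exact isPrimitiveRoot_residue H.pos (by rw [coe_psiA]; exact hψg) (H.natCast_ne_zero hA)
  have hwo : orderOf w = e := hwprim.eq_orderOf.symm
  -- the key formula on units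
  have hunits : ∀ a : (ZMod q)ˣ, psiBar A ψ (a : ZMod q) = ι (a : ZMod q) ^ m := by
    intro a
    obtain ⟨n, rfl⟩ := hpow a
    rw [Units.val_pow_eq_pow_val, map_pow, map_pow, ← hw, ← hz, ← hm, ← pow_mul, ← pow_mul,
      mul_comm]
  -- `m ≠ 0`
  have hm0 : m ≠ 0 := by
    rintro rfl
    rw [pow_zero] at hm
    rw [← hm, orderOf_one] at hwo
    omega
  have hall : ∀ a : ZMod q, psiBar A ψ a = ι a ^ m := by
    intro a
    by_cases ha : IsUnit a
    · obtain ⟨u, rfl⟩ := ha
      exact hunits u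
    · rw [MulChar.map_nonunit _ ha]
      have : a = 0 := by
        by_contra h0
        exact ha (IsUnit.mk0 a h0)
      rw [this, map_zero, zero_pow hm0]
  -- parity
  have hbar1 : psiBar A ψ (-1) = 1 := by
    rw [psiBar_apply]
    have : psiA A ψ (-1) = 1 := Subtype.ext (by rw [coe_psiA, heven]; rfl)
    rw [this, map_one]
  have hmeven : Even m := by
    by_contra hodd
    rw [Nat.not_even_iff_odd] at hodd
    have h1 := hall (-1)
    rw [hbar1, map_neg, map_one, hodd.neg_one_pow] at h1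
    have h2 : ((2 : ℕ) : kA) = 0 := by
      have : (2 : kA) = 1 + 1 := by norm_num
      rw [Nat.cast_ofNat, this]
      nth_rewrite 1 [h1]
      ring
    have h3 : q ∣ 2 := (CharP.cast_eq_zero_iff kA q 2).mp h2
    exact hq2 ((Nat.prime_dvd_prime_iff_eq hq.out Nat.prime_two).mp h3)
  have hqodd : Odd q := hq.out.odd_of_ne_two hq2
  obtain ⟨r, hr⟩ := hmeven
  obtain ⟨s, hs⟩ := hqodd
  -- the order of `w = z ^ m`
  have hord : e = (q - 1) / Nat.gcd (q - 1) m := by
    rw [← hwo, ← hm, orderOf_pow' z hm0, hzo]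
  set c := Nat.gcd (q - 1) m with hc
  have hc1 : c ∣ q - 1 := Nat.gcd_dvd_left _ _
  have hc2 : c ∣ m := Nat.gcd_dvd_right _ _
  have hcpos : 0 < c := Nat.gcd_pos_of_pos_left _ hq1
  have hec : e * c = q - 1 := by rw [hord, Nat.div_mul_cancel hc1]
  refine ⟨m, m / c, ⟨r, hr⟩, by omega, by omega, ?_, ?_, ?_⟩
  · rw [← hec, mul_assoc, Nat.mul_div_cancel' hc2]
  · rw [hord]
    exact (Nat.coprime_div_gcd_div_gcd hcpos).symm
  · intro d
    rw [chi, hall, hι, map_natCast]

end Fermat.Agent.S43lib.LGC.KCM
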