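/-
Project H (S43) / LGC / KCM / OrdGlue   (helper2)

**The node condition**: at every supersingular point `v` of `X₀(M)_k` (`v ∈ modNodes D1`) the order of
`ū₁ = red₁ (h^♯_ψ)^e`, `e = p^t`, is prime to `p`.

Inputs (statements (B), (C) of the mod-`q` side, proved in `ThetaQ.lean`, `OrdDvd.lean`):
* `ThetaStmt A q` : `(12 h̄^♯_m)^12 = W(j̄) Δ̄^m` for the level one series `h̄^♯_m = sharp q (d ↦ d^m)`;
* `OrdDvdStmt A M q` : every zero of `Δ̄^(1-q)` at which `j̄` is regular has order dividing `12`.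

Then `12^(12 e) ū₁^12 H₂^j = W^e` with `e m = (q-1) j`, `gcd(j, e) = 1`, so
`12 ord_v ū₁ + j ord_v H₂ = e ord_v W` and `p ∤ ord_v ū₁`.
-/
import Mathlib
import Fermat.Agent.S43lib.LGC.KCM.PowForm
import Fermat.Agent.S36lib.Count.OrdTwelve

set_option autoImplicit false
set_option linter.unusedSectionVars false
set_option linter.style.haveILetI false

noncomputable section

namespace Fermat.Agent.S43lib.LGC.KCM

open ModularCurve Polynomial AlgebraicCurve
open Fermat.Agent.ProgramR Fermat.Agent.S18lib Fermat.Agent.S28lib Fermat.Agent.LSb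

local notation "Qb" => AlgebraicClosure ℚ

variable {M q : ℕ} [NeZero M] [NeZero q] [hq : Fact q.Prime]
variable {A : ValuationSubring (AlgebraicClosure ℚ)}

local notation "kA" => IsLocalRing.ResidueField A

/-- statement (B): the level one identity `(12 h̄^♯_m)^12 = W(j̄) Δ̄^m` -/
def ThetaStmt (A : ValuationSubring (AlgebraicClosure ℚ)) (q : ℕ) [NeZero q] : Prop :=
  ∀ m : ℕ, Even m → 2 ≤ m → m + 3 ≤ q →
    ∃ P₁ : (IsLocalRing.ResidueField A)[X],
      ((12 : LaurentSeries (IsLocalRing.ResidueField A)) *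
        sharp q (fun d : ℕ => ((d : ℕ) : IsLocalRing.ResidueField A) ^ m)) ^ 12 =
        aeval (jqModC (IsLocalRing.ResidueField A)) P₁ * DeltaQ (IsLocalRing.ResidueField A) ^ m

/-- statement (C): zeros of `Δ̄^(1-q)` away from the cusps have order dividing `12` -/
def OrdDvdStmt (A : ValuationSubring (AlgebraicClosure ℚ)) (M q : ℕ) [NeZero M] : Prop :=
  ∀ h : FRes A M,
    ((h : FRes A M) : LaurentSeries (kRes A)) * DeltaQ (kRes A) ^ (q - 1) = 1 →
    ∀ v : Place (kRes A) (FRes A M), Gink.jK A M ∈ v.toValuationSubring → 0 < v.ord h →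
      v.ord h ∣ 12

variable {D1 : GaussDatum A (FBar (M * q)) (FRes A M)}
variable {ψ : MulChar (ZMod q) Qb} {p t : ℕ}

theorem five_le_ne_two (h5 : 5 ≤ q) : q ≠ 2 := by omega

theorem one_lt_prime_pow (hp : p.Prime) (ht : t ≠ 0) : 1 < p ^ t :=
  Nat.one_lt_pow ht hp.one_lt

theorem odd_prime_pow (hp : p.Prime) (hp5 : 5 ≤ p) : Odd (p ^ t) :=
  (hp.odd_of_ne_two (by omega)).pow

/-- `red₁ u₁ ≠ 0` -/
theorem redF_uOne_ne_zero (h1 : Old.IsGaussOne D1) {e : ℕ} (H : IsOrd ψ e) (hψ : ψ ≠ 1)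
    (heven : ψ (-1) = 1) : D1.redF (uOne (M := M) H hψ heven) ≠ 0 := by
  intro h0
  have h := coe_redF_uOne h1 H hψ heven
  rw [h0] at h
  exact pow_ne_zero e (sharp_ne_zero q (chi_one (psiBar A ψ))) h.symm

/-- **the node condition** -/
theorem node_coprime (hT : ThetaStmt A q) (hO : OrdDvdStmt A M q) (h5 : 5 ≤ q)
    (hA : A.LiesOverPrime q) (h1 : Old.IsGaussOne D1) (hp : p.Prime) (hp5 : 5 ≤ p) (ht : t ≠ 0)
    (H : IsOrd ψ (p ^ t)) (hψ : ψ ≠ 1) (heven : ψ (-1) = 1)
    {v : Place kA (FRes A M)} (hv : v ∈ Unit.modNodes D1) :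
    IsCoprime ((p ^ t : ℕ) : ℤ) (v.ord (D1.redF (uOne (M := M) H hψ heven))) := by
  haveI := Old.charP_kRes hA
  obtain ⟨m, j, hmeven, hm2, hmq, hem, hcop, hchi⟩ :=
    exists_pow_form hA (five_le_ne_two h5) H (one_lt_prime_pow hp ht) heven
  obtain ⟨P₁, hP₁⟩ := hT m hmeven hm2 hmq
  set e := p ^ t with he
  set ubar := D1.redF (uOne (M := M) H hψ heven) with hubar
  set s : LaurentSeries kA := sharp q (fun d : ℕ => ((d : ℕ) : kA) ^ m) with hs
  have hcoe : ((ubar : FRes A M) : LaurentSeries kA) = s ^ e := by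
    rw [hubar, coe_redF_uOne h1 H hψ heven, hs]
    congr 2
    funext d
    exact hchi d
  set W : FRes A M := aeval (Gink.jK A M) P₁ with hW
  have hWcoe : ((W : FRes A M) : LaurentSeries kA) = aeval (jqModC kA) P₁ := by
    rw [hW, Gink.coe_aeval_jK]
    rfl
  have hH := Unit.coe_H₂_mul hA h1 (D1 := D1)
  -- the key identity
  have hkey : (algebraMap kA (FRes A M) 12) ^ (12 * e) * ubar ^ 12 * Unit.H₂ D1 ^ j = W ^ e := by
    apply Subtype.ext
    push_cast
    rw [map_ofNat, hcoe, hWcoe]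
    have e1 : (12 : LaurentSeries kA) ^ (12 * e) * (s ^ e) ^ 12 =
        (((12 : LaurentSeries kA) * s) ^ 12) ^ e := by
      rw [← pow_mul ((12 : LaurentSeries kA) * s), mul_pow, ← pow_mul s, mul_comm e 12]
    rw [e1, hP₁, mul_pow, ← pow_mul, mul_comm m e, hem, pow_mul, mul_assoc, ← mul_pow,
      mul_comm (DeltaQ kA ^ (q - 1)), hH, one_pow, mul_one]
  -- nonvanishing
  have hu0 : ubar ≠ 0 := redF_uOne_ne_zero h1 H hψ heven
  have hH0 : Unit.H₂ D1 ≠ 0 := Unit.H₂_ne_zero h1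
  have h12k : (12 : kA) ≠ 0 := by
    have h := Gink.natCast_ne_zero_kRes (A := A) hA (n := 12) (fun hdvd => by
      have h2 : q ∣ 2 ^ 2 * 3 := by norm_num; exact hdvd
      rcases (Nat.Prime.dvd_mul hq.out).mp h2 with h | h
      · have := Nat.le_of_dvd (by norm_num) (hq.out.dvd_of_dvd_pow h); omega
      · have := Nat.le_of_dvd (by norm_num) h; omega)
    intro h0
    apply h
    rw [← h0]
    norm_num
  have hc0 : algebraMap kA (FRes A M) 12 ≠ 0 := (_root_.map_ne_zero _).2 h12k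
  have hW0 : W ≠ 0 := by
    intro h0
    rw [h0, zero_pow (by positivity : e ≠ 0)] at hkey
    exact mul_ne_zero (mul_ne_zero (pow_ne_zero _ hc0) (pow_ne_zero _ hu0)) (pow_ne_zero _ hH0) hkey
  -- orders
  have hord : 12 * v.ord ubar + (j : ℤ) * v.ord (Unit.H₂ D1) = (e : ℤ) * v.ord W := by
    have := congrArg v.ord hkey
    rw [v.ord_mul (mul_ne_zero (pow_ne_zero _ hc0) (pow_ne_zero _ hu0)) (pow_ne_zero _ hH0),
      v.ord_mul (pow_ne_zero _ hc0) (pow_ne_zero _ hu0), Cech.ord_pow, Cech.ord_pow, Cech.ord_pow,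
      Cech.ord_pow, Cech.ord_const, mul_zero, zero_add] at this
    push_cast at this ⊢
    linarith
  -- the order of `H₂` at the node
  rw [Unit.modNodes, Unit.mem_nodeSet] at hv
  have hHpos : 0 < v.ord (Unit.H₂ D1) :=
    ((LSb.adicValuation_lt_one_iff (Q := v)).1 hv.2).resolve_left hH0
  have hHdvd : v.ord (Unit.H₂ D1) ∣ 12 := hO (Unit.H₂ D1) hH v hv.1 hHpos
  -- conclusion
  have hpZ : Prime (p : ℤ) := Nat.prime_iff_prime_int.mp hp
  have hcop1 : IsCoprime (p : ℤ) (v.ord ubar) := by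
    rw [hpZ.irreducible.coprime_iff_not_dvd]
    intro hdvd
    have hpe : (p : ℤ) ∣ (e : ℤ) := by
      rw [he]
      push_cast
      exact dvd_pow_self _ ht
    have h1' : (p : ℤ) ∣ (j : ℤ) * v.ord (Unit.H₂ D1) := by
      have h2 : (p : ℤ) ∣ (e : ℤ) * v.ord W := Dvd.dvd.mul_right hpe _
      rw [← hord] at h2
      exact (Int.dvd_add_right (Dvd.dvd.mul_left hdvd 12)).mp h2
    rcases hpZ.dvd_or_dvd h1' with h2 | h2
    · have h3 : p ∣ j := Int.natCast_dvd_natCast.mp h2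
      have h4 : Nat.Coprime j p := Nat.Coprime.coprime_dvd_right (he ▸ dvd_pow_self p ht) hcop
      have := Nat.Coprime.eq_one_of_dvd h4.symm h3
      have := hp.one_lt
      omega
    · have h3 : (p : ℤ) ∣ 12 := h2.trans hHdvd
      have h4 : p ∣ 12 := by exact_mod_cast h3
      have h5' : p ∣ 2 ^ 2 * 3 := by norm_num; exact h4
      rcases (Nat.Prime.dvd_mul hp).mp h5' with h | h
      · have := Nat.le_of_dvd (by norm_num) (hp.dvd_of_dvd_pow h); omega
      · have := Nat.le_of_dvd (by norm_num) h; omega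
  push_cast
  exact hcop1.pow_left

end Fermat.Agent.S43lib.LGC.KCM
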