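/-
Project H (S43) / LGC / KCM / Cover   (helper2)

**The Kummer cover `X_H(M q) → X₀(M q)` as an `IsKummerCover` of the modular nodal datum.**

`e = p^t`, `p ≥ 5`; `ψ` a character of `(ℤ/q)ˣ` of exact order `e`; `F = F_H = FBH (psiU M q ψ)`,
`h₁ = h^♯_ψ`, `h₂ = w̃ h^♯_{ψ⁻¹}`, `u_i = h_i^e`; residue fields `K_i' = FRes A M (ū_i^{1/e})`.
-/
import Mathlib
import Fermat.Agent.S43lib.LGC.KCM.OrdGlue
import Fermat.Agent.S43lib.LGC.KC.KummerField
import Fermat.Agent.S43lib.LGC.KC.Ctx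
import Fermat.Agent.S43lib.Igusa.Unram
import Fermat.Agent.S36lib.Count.FrobNodes
import Fermat.Agent.LSb.Unit.NodePos

set_option autoImplicit false
set_option linter.unusedSectionVars false
set_option linter.style.haveILetI false

noncomputable section

namespace Fermat.Agent.S43lib.LGC.KCM

open ModularCurve Polynomial AlgebraicCurve CongruenceSubgroup
open scoped MatrixGroups
open Fermat.Agent.ProgramR Fermat.Agent.ProgramR.BarField Fermat.Agent.S18lib Fermat.Agent.LSb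
open Fermat.Agent.ProgramR.ES (IsPar)
open Fermat.Agent.S48lib.X1 Fermat.Agent.S48lib.X1.HeckeJ
open Fermat.Agent.S43lib.Igusa Fermat.Agent.S43lib.LGC.KC

local notation "Qb" => AlgebraicClosure ℚ

variable {M q : ℕ} [NeZero M] [NeZero q] [hq : Fact q.Prime]
variable {A : ValuationSubring (AlgebraicClosure ℚ)}

local notation "kA" => IsLocalRing.ResidueField A

variable {D1 : GaussDatum A (FBar (M * q)) (FRes A M)}
variable {ψ : MulChar (ZMod q) Qb} {e p t : ℕ}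

/-! ### unramifiedness in characteristic zero -/

theorem psiU_par (heven : ψ (-1) = 1) (γ : Gamma0 (M * q)) (hγ : IsPar (γ : SL(2, ℤ))) :
    psiU M q ψ (gammaUnit (M * q) γ) = 1 := by
  apply Units.ext
  rw [coe_psiU, psiN, coe_gammaUnit, map_intCast, Units.val_one]
  rcases isPar_unit_eq hq.out (dvd_level M q) γ hγ with h | h
  · rw [h, map_one]
  · rw [h, heven]

theorem coprime_six_prime_pow (hp : p.Prime) (hp5 : 5 ≤ p) : Nat.Coprime (p ^ t) 6 := by
  apply Nat.Coprime.pow_left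
  rw [Nat.Prime.coprime_iff_not_dvd hp]
  intro h
  have h6 : p ∣ 2 * 3 := h
  rcases (Nat.Prime.dvd_mul hp).mp h6 with h | h
  · have := Nat.le_of_dvd (by norm_num) h; omega
  · have := Nat.le_of_dvd (by norm_num) h; omega

/-- **`X_H → X₀(M q)` is unramified**: `e ∣ ord_P u₁` at every place -/
theorem unram_uOne (h6 : Nat.Coprime e 6) (H : IsOrd ψ e) (hψ : ψ ≠ 1) (heven : ψ (-1) = 1)
    (P : Place Qb (FBar (M * q))) : (e : ℤ) ∣ P.ord (uOne (M := M) H hψ heven) := by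
  refine dvd_ord_of_eigen H.pos h6 (psiU M q ψ) H.psiU_pow (psiU_par heven)
    (x := sharpB (one_lt_level M q) (dvd_level M q) hψ heven) ?_ ?_ ?_ P
  · intro h0
    have := congrArg (fun x : ↥(laurentBaseChange Qb (F1 (M * q))) => (x : LaurentSeries Qb)) h0
    exact sharp_ne_zero q (chi_one ψ) this
  · intro u
    rw [diaU_sharpB, coe_psiU]
  · rfl

/-! ### the root of unity -/

theorem exists_zeta (hA : A.LiesOverPrime q) (H : IsOrd ψ e) :
    ∃ ζ : A, ζ ^ e = 1 ∧ IsPrimitiveRoot ((ζ : A) : Qb) e ∧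
      IsPrimitiveRoot (IsLocalRing.residue A ζ) e := by
  obtain ⟨a, ha⟩ := H.prim
  refine ⟨psiA A ψ a, Subtype.ext ?_, ha, isPrimitiveRoot_residue H.pos ha (H.natCast_ne_zero hA)⟩
  rw [SubmonoidClass.coe_pow, coe_psiA]
  exact ha.pow_eq_one

/-! ### the residue extensions -/

/-- `ū₁ = red₁ u₁` -/
def ubarOne (D1 : GaussDatum A (FBar (M * q)) (FRes A M)) (H : IsOrd ψ e) (hψ : ψ ≠ 1)
    (heven : ψ (-1) = 1) : FRes A M := D1.redF (uOne (M := M) H hψ heven)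

/-- `ū₂ = red₂ u₂` -/
def ubarTwo (hqM : ¬ q ∣ M) (D1 : GaussDatum A (FBar (M * q)) (FRes A M)) (H : IsOrd ψ e)
    (hψ : ψ ≠ 1) (heven : ψ (-1) = 1) : FRes A M :=
  (Unit.modD2 hqM D1).redF (uTwo hqM H hψ heven)

theorem ubarTwo_eq (hqM : ¬ q ∣ M) (H : IsOrd ψ e) (hψ : ψ ≠ 1) (heven : ψ (-1) = 1) :
    ubarTwo hqM D1 H hψ heven = ubarOne D1 H.inv (inv_ne_one hψ) (inv_even heven) :=
  redF_uTwo hqM (Unit.isGaussTwo_modD2 hqM D1) H hψ heven

section Nodes

variable [HasPrincipalDivisors (IsLocalRing.ResidueField A) (FRes A M)]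

/-- `ū₁` is not a `p`-th power -/
theorem ubarOne_not_pow (hT : ThetaStmt A q) (hO : OrdDvdStmt A M q) (h5 : 5 ≤ q)
    (hA : A.LiesOverPrime q) (h1 : Old.IsGaussOne D1) (hp : p.Prime) (hp5 : 5 ≤ p) (ht : t ≠ 0)
    (H : IsOrd ψ (p ^ t)) (hψ : ψ ≠ 1) (heven : ψ (-1) = 1) {gM : ℕ}
    (hFk : IsCurveOfGenus kA (FRes A M) gM) (b : FRes A M) :
    b ^ p ≠ ubarOne D1 H hψ heven := by
  intro hb
  have c : Fin (Unit.modS D1) := ⟨0, Unit.modS_pos hA h1 hFk⟩
  have hcop := node_coprime hT hO h5 hA h1 hp hp5 ht H hψ heven (S36lib.Count.modX₂_mem' c)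
  rw [← ubarOne, ← hb, Cech.ord_pow] at hcop
  have hcop1 : IsCoprime (p : ℤ) ((p : ℤ) * (Unit.modX₂ D1 c).ord b) := by
    have : IsCoprime ((p : ℤ) ^ t) ((p : ℤ) * (Unit.modX₂ D1 c).ord b) := by
      have h := hcop
      push_cast at h
      exact h
    exact (IsCoprime.pow_left_iff (Nat.pos_of_ne_zero ht)).mp this
  have hunit : IsUnit (p : ℤ) := hcop1.isUnit_of_dvd' dvd_rfl (Dvd.intro _ rfl)
  have := Int.isUnit_iff.mp hunit
  have := hp.one_lt
  omega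

theorem irreducible_ubarOne (hT : ThetaStmt A q) (hO : OrdDvdStmt A M q) (h5 : 5 ≤ q)
    (hA : A.LiesOverPrime q) (h1 : Old.IsGaussOne D1) (hp : p.Prime) (hp5 : 5 ≤ p) (ht : t ≠ 0)
    (H : IsOrd ψ (p ^ t)) (hψ : ψ ≠ 1) (heven : ψ (-1) = 1) {gM : ℕ}
    (hFk : IsCurveOfGenus kA (FRes A M) gM) :
    Irreducible (X ^ (p ^ t) - C (ubarOne D1 H hψ heven) : (FRes A M)[X]) :=
  irreducible_X_pow_sub_C_of_ord hp (by omega) ht
    (ubarOne_not_pow hT hO h5 hA h1 hp hp5 ht H hψ heven hFk)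

/-- the Kummer lift on the first component -/
theorem kummerLift_one (hT : ThetaStmt A q) (hO : OrdDvdStmt A M q) (h5 : 5 ≤ q)
    (hA : A.LiesOverPrime q) (h1 : Old.IsGaussOne D1) (hp : p.Prime) (hp5 : 5 ≤ p) (ht : t ≠ 0)
    (H : IsOrd ψ (p ^ t)) (hψ : ψ ≠ 1) (heven : ψ (-1) = 1) {gM : ℕ}
    (hFk : IsCurveOfGenus kA (FRes A M) gM) :
    KummerLift D1 (p ^ t) (uOne (M := M) H hψ heven) (hSh (M := M) hψ heven)
      (kumGen (p ^ t) (ubarOne D1 H hψ heven)) where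
  gen := isKummerGen_hSh H hψ heven
  u_mem := uOne_mem h1 H hψ heven
  genbar := isKummerGen_kumGen H.pos
    (irreducible_ubarOne hT hO h5 hA h1 hp hp5 ht H hψ heven hFk)

/-- the Kummer lift on the second component -/
theorem kummerLift_two (hT : ThetaStmt A q) (hO : OrdDvdStmt A M q) (h5 : 5 ≤ q) (hqM : ¬ q ∣ M)
    (hA : A.LiesOverPrime q) (h1 : Old.IsGaussOne D1) (hp : p.Prime) (hp5 : 5 ≤ p) (ht : t ≠ 0)
    (H : IsOrd ψ (p ^ t)) (hψ : ψ ≠ 1) (heven : ψ (-1) = 1) {gM : ℕ}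
    (hFk : IsCurveOfGenus kA (FRes A M) gM) :
    KummerLift (Unit.modD2 hqM D1) (p ^ t) (uTwo hqM H hψ heven) (hTwo hqM hψ heven)
      (kumGen (p ^ t) (ubarTwo hqM D1 H hψ heven)) where
  gen := isKummerGen_hTwo hqM H hψ heven
  u_mem := uTwo_mem hqM h1 (Unit.isGaussTwo_modD2 hqM D1) H hψ heven
  genbar := isKummerGen_kumGen H.pos (by
    show Irreducible (X ^ (p ^ t) - C (ubarTwo hqM D1 H hψ heven) : (FRes A M)[X])
    rw [ubarTwo_eq]
    exact irreducible_ubarOne hT hO h5 hA h1 hp hp5 ht H.inv (inv_ne_one hψ) (inv_even heven) hFk)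

/-- **the Kummer cover datum of `X_H(M q) → X₀(M q)`** -/
theorem exists_isKummerCover (hT : ThetaStmt A q) (hO : OrdDvdStmt A M q) (h5 : 5 ≤ q)
    (hqM : ¬ q ∣ M) (hA : A.LiesOverPrime q) (h1 : Old.IsGaussOne D1) (hp : p.Prime)
    (hp5 : 5 ≤ p) (ht : t ≠ 0) (H : IsOrd ψ (p ^ t)) (hψ : ψ ≠ 1) (heven : ψ (-1) = 1) {gM : ℕ}
    (hFk : IsCurveOfGenus kA (FRes A M) gM) :
    ∃ ζ : A, IsKummerCover D1 (Unit.modD2 hqM D1) (Unit.modX₁ hA D1) (Unit.modX₂ D1) (p ^ t)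
      (uOne (M := M) H hψ heven) (uTwo hqM H hψ heven) (hSh (M := M) hψ heven)
      (hTwo hqM hψ heven) (kumGen (p ^ t) (ubarOne D1 H hψ heven))
      (kumGen (p ^ t) (ubarTwo hqM D1 H hψ heven)) ζ := by
  obtain ⟨ζ, hζ1, hζ2, hζ3⟩ := exists_zeta hA H
  refine ⟨ζ, ?_⟩
  exact
    { lift₁ := kummerLift_one hT hO h5 hA h1 hp hp5 ht H hψ heven hFk
      lift₂ := kummerLift_two hT hO h5 hqM hA h1 hp hp5 ht H hψ heven hFk
      ratio := exists_ratio hqM hψ heven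
      red_ne₁ := redF_uOne_ne_zero h1 H hψ heven
      red_ne₂ := by
        have := ubarTwo_eq (D1 := D1) hqM H hψ heven
        rw [ubarTwo] at this
        rw [this]
        exact redF_uOne_ne_zero h1 H.inv (inv_ne_one hψ) (inv_even heven)
      zeta_pow := hζ1
      zeta_prim := hζ2
      zeta_prim_res := hζ3
      e_ne_zero := H.natCast_ne_zero hA
      unram := unram_uOne (coprime_six_prime_pow hp hp5) H hψ heven
      node₁ := fun c =>
        node_coprime hT hO h5 hA h1 hp hp5 ht H hψ heven (S36lib.Count.modX₁_mem hA h1 c)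
      node₂ := fun c => by
        have := ubarTwo_eq (D1 := D1) hqM H hψ heven
        rw [ubarTwo] at this
        rw [this]
        exact node_coprime hT hO h5 hA h1 hp hp5 ht H.inv (inv_ne_one hψ) (inv_even heven)
          (S36lib.Count.modX₂_mem' c) }

end Nodes

end Fermat.Agent.S43lib.LGC.KCM
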