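/-
Project H (S43) / LGC / KCM / FrameM   (helper2)

The one-sided frame data of the modular pair `(D1, D2)` of level `M q`, `y = j`, in the form of
`KC.OneSided` (the same construction as `LSb.Frame.modular_exists_isFrameFamilyS`, stopped before the
gluing step).
-/
import Mathlib
import Fermat.Agent.LSb.Frame.Modular
import Fermat.Agent.S43lib.LGC.KC.Frame

set_option autoImplicit false
set_option linter.unusedSectionVars false
set_option linter.style.haveILetI false

noncomputable section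

namespace Fermat.Agent.S43lib.LGC.KCM

open AlgebraicCurve ModularCurve Polynomial Fermat.Agent.S18lib Fermat.Agent.LSb
open Fermat.Agent.LSb.Old Fermat.Agent.LSb.Frame Fermat.Agent.S43lib.LGC.KC

local notation "Qb" => AlgebraicClosure ℚ

variable {M q : ℕ} [NeZero M] [NeZero q] [hq : Fact q.Prime]
variable {A : ValuationSubring (AlgebraicClosure ℚ)}

local notation "kA" => IsLocalRing.ResidueField A

variable {D1 D2 : GaussDatum A (FBar (M * q)) (FRes A M)} {wq : FBar (M * q) →+* FBar (M * q)}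

/-- **the one-sided frames of the modular pair**, `y = j` -/
theorem modular_oneSided (hqM : ¬ q ∣ M) (hA : A.LiesOverPrime q)
    (h1 : IsGaussOne D1) (h2 : IsGaussTwo D1 D2 wq) (hwq : ∀ x, wq (wq x) = x) :
    ∃ (θ1 : Fin (dedekindPsi M) → FBar (M * q)) (θ2 : Fin (q * dedekindPsi M) → FBar (M * q)),
      OneSided D1 D2 (Gin0.jF (M * q)) θ1 θ2 := by
  classical
  have hfr := frameM (M := M) (q := q) hqM hA
  set G := V.gaussDatum M A hqM hA with hG
  set jM := Gin0.jF M with hjM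
  set ψ := dedekindPsi M with hψ
  set θ : Fin ψ → FBar M := fun i => V.elemL (V.frameTheta M q A hqM i) with hθ
  have hjO : jM ∈ G.O := hfr.y_mem
  have hψpos : 0 < ψ := hfr.n_pos
  have hq0 : 0 < q := hq.out.pos
  have hrank : RankOneDvd A := rankOne_of_liesOverPrime A hA
  have hne := O_ne hqM hA h1 h2 hwq
  have hy : Gin0.jF (M * q) = alpha M q jM := (alpha_jF (M := M) (q := q)).symm
  have hy1 : Gin0.jF (M * q) ∈ D1.O := by
    rw [hy]; exact (alpha_mem_iff hqM hA h1 jM).2 hjO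
  have hy2 : Gin0.jF (M * q) ∈ D2.O := by
    rw [hy]; exact (alpha_mem_iff₂ hqM hA h1 h2 jM).2 hjO
  have hred1 : D1.redF (Gin0.jF (M * q)) = V.jRes M A := by
    rw [hy, redF_alpha hqM hA h1, redF_jF hqM hA]
  have hred2 : D2.redF (Gin0.jF (M * q)) = V.jRes M A ^ q := by
    rw [hy, redF_alpha₂ hqM hA h1 h2, redF_jF hqM hA, Vq_jRes hA]
  have hind : LinearIndependent kA
      (fun m : ℕ × Fin ψ => V.jRes M A ^ m.1 * G.redF (θ m.2)) := by
    have := hfr.red_indep
    rwa [redF_jF hqM hA] at this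
  -- first family
  let θ1 : Fin ψ → FBar (M * q) := fun i => alpha M q (θ i)
  have hθ1 : ∀ i, θ1 i ∈ D1.O := fun i => (alpha_mem_iff hqM hA h1 (θ i)).2 (hfr.θ_mem i)
  have hind1 : LinearIndependent kA
      (fun m : ℕ × Fin ψ => D1.redF (Gin0.jF (M * q)) ^ m.1 * D1.redF (θ1 m.2)) := by
    have : (fun m : ℕ × Fin ψ => D1.redF (Gin0.jF (M * q)) ^ m.1 * D1.redF (θ1 m.2))
        = fun m : ℕ × Fin ψ => V.jRes M A ^ m.1 * G.redF (θ m.2) := by
      funext m
      rw [hred1, redF_alpha hqM hA h1]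
    rw [this]
    exact hind
  -- second family
  let f2 : Fin (q * ψ) → FBar M := fun l =>
    jM ^ ((finProdFinEquiv.symm l).1 : ℕ) * θ (finProdFinEquiv.symm l).2
  have hf2 : ∀ l, f2 l ∈ G.O := fun l =>
    G.O.mul_mem _ _ (G.O.pow_mem hjO _) (hfr.θ_mem _)
  let θ2 : Fin (q * ψ) → FBar (M * q) := fun l => beta M q (f2 l)
  have hθ2 : ∀ l, θ2 l ∈ D2.O := fun l => (beta_mem_iff₂ hqM hA h1 h2 hwq (f2 l)).2 (hf2 l)
  have hind2 : LinearIndependent kA
      (fun m : ℕ × Fin (q * ψ) => D2.redF (Gin0.jF (M * q)) ^ m.1 * D2.redF (θ2 m.2)) := by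
    have : (fun m : ℕ × Fin (q * ψ) => D2.redF (Gin0.jF (M * q)) ^ m.1 * D2.redF (θ2 m.2))
        = (fun m : ℕ × Fin ψ => V.jRes M A ^ m.1 * G.redF (θ m.2)) ∘ idx₂ q ψ := by
      funext m
      simp only [Function.comp_apply, idx₂]
      rw [hred2, redF_beta₂ hqM hA h1 h2 hwq,
        G.redF_mul (G.O.pow_mem hjO _) (hfr.θ_mem _), G.redF_pow hjO, redF_jF hqM hA,
        ← pow_mul, pow_add, mul_assoc]
    rw [this]
    exact hind.comp _ (idx₂_injective q ψ)
  -- the degree
  have hdeg : PolyDegLE Qb (Gin0.jF (M * q)) (ψ + q * ψ) := by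
    intro ω hω
    have h := Fermat.Agent.ProgramR.BarField.card_le_of_poly_independent (M * q)
      Fermat.Agent.ProgramR.BarField.qbarEmb ω hω
    rw [Fermat.Agent.ProgramR.dedekindPsi_mul_prime_of_not_dvd (NeZero.ne M) hq.out hqM,
      add_mul, one_mul, ← hψ] at h
    omega
  exact ⟨θ1, θ2,
    { rankOne := hrank
      ne := hne
      y_mem := mem_supO.2 ⟨hy1, hy2⟩
      n1_pos := hψpos
      n2_pos := Nat.mul_pos hq0 hψpos
      mem1 := hθ1
      mem2 := hθ2
      ind1 := hind1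
      ind2 := hind2
      deg := hdeg }⟩

end Fermat.Agent.S43lib.LGC.KCM
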