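/-
Project H (S43) / LGC / KCM / Main   (helper2)

**KC-Mod: the nodal context of `X_H(M q)`.**  `N = M q`, `q ≥ 5` prime, `q ∤ M`; `A` a valuation
subring of `ℚ̄` over `q`; `D1` the first Gauss datum of level `M q` (`IsGaussOne`), `D2 = w_q^* D1`;
`ψ` a character of `(ℤ/q)ˣ` of exact order `e = p^t`, `p ≥ 5`.  Then the function field `F_H` of
`X_H(M q)`, `H = ker ψ`, with the Gauss data `gaussExt lift₁`, `gaussExt lift₂` extending `D1`, `D2`
along the Kummer generators `h₁ = h^♯_ψ`, `h₂ = w̃ h^♯_{ψ⁻¹}`, the residue fields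
`K_i' = FRes A M (ū_i^{1/e})`, and the (unique) points above the supersingular points, is a `NodalCtx`.
-/
import Mathlib
import Fermat.Agent.S43lib.LGC.KCM.Cover
import Fermat.Agent.S43lib.LGC.KCM.FrameM
import Fermat.Agent.S43lib.LGC.KC.CurveGen
import Fermat.Agent.LSb.Unit.CountAdapter

set_option autoImplicit false
set_option linter.unusedSectionVars false
set_option linter.style.haveILetI false

noncomputable section

namespace Fermat.Agent.S43lib.LGC.KCM

open ModularCurve Polynomial AlgebraicCurve IntermediateField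
open Fermat.Agent.ProgramR Fermat.Agent.ProgramR.BarField Fermat.Agent.S18lib Fermat.Agent.LSb
open Fermat.Agent.S48lib.X1 Fermat.Agent.S48lib.X1.HeckeJ
open Fermat.Agent.S43lib.Igusa Fermat.Agent.S43lib.LGC.KC

local notation "Qb" => AlgebraicClosure ℚ

variable {M q : ℕ} [NeZero M] [NeZero q] [hq : Fact q.Prime]
variable {A : ValuationSubring (AlgebraicClosure ℚ)}

local notation "kA" => IsLocalRing.ResidueField A

variable {D1 : GaussDatum A (FBar (M * q)) (FRes A M)}
variable {ψ : MulChar (ZMod q) Qb} {e p t : ℕ}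

/-! ### the curves -/

theorem uOne_ne_zero (H : IsOrd ψ e) (hψ : ψ ≠ 1) (heven : ψ (-1) = 1) :
    uOne (M := M) H hψ heven ≠ 0 := by
  intro h0
  have := congrArg (fun x : FBar (M * q) => (x : LaurentSeries Qb)) h0
  exact pow_ne_zero e (sharp_ne_zero q (chi_one ψ)) this

/-- `F_H` is the function field of a curve over `ℚ̄` -/
theorem exists_isCurveOfGenus_FH (H : IsOrd ψ e) (hψ : ψ ≠ 1) (heven : ψ (-1) = 1) :
    ∃ g : ℕ, IsCurveOfGenus Qb (FBH (psiU M q ψ)) g := by
  have he : ((e : ℕ) : Qb) ≠ 0 := Nat.cast_ne_zero.mpr H.pos.ne'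
  exact exists_isCurveOfGenus_of_isKummerGen (x := Gin0.jF (M * q))
    (Gin0.transcendental_jF (M * q)) he (uOne_ne_zero H hψ heven) (isKummerGen_hSh H hψ heven)

/-- the Kummer extensions of `FRes A M` are function fields of curves over `k` -/
theorem exists_isCurveOfGenus_kum (hqM : ¬ q ∣ M) (hA : A.LiesOverPrime q) (hek : ((e : ℕ) : kA) ≠ 0)
    (he : 0 < e) {u : FRes A M} (hu : u ≠ 0) (hirr : Irreducible (X ^ e - C u : (FRes A M)[X])) :
    ∃ g' : ℕ, IsCurveOfGenus kA ↥(kumField e u) g' := by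
  haveI : IsAlgClosed kA := Gink.isAlgClosed_residueField A
  haveI : Algebra.IsSeparable kA⟮Gink.jK A M⟯ (FRes A M) := Gink.isSeparable_jK A M hA hqM
  haveI : FiniteDimensional kA⟮Gink.jK A M⟯ (FRes A M) := by
    apply Module.finite_of_finrank_pos
    rw [Gink.finrank_jK A M hA hqM]
    exact Fermat.Agent.ProgramR.BarField.dedekindPsi_pos M
  exact exists_isCurveOfGenus_of_isKummerGen (x := Gink.jK A M) (Gink.transcendental_jK A M) hek hu
    (isKummerGen_kumGen he hirr)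

/-! ### the nodal context -/

section MainThm

variable [HasPrincipalDivisors Qb (FBar M)] [HasPrincipalDivisors Qb (FBar (M * q))]
variable [HasPrincipalDivisors (IsLocalRing.ResidueField A) (FRes A M)]

/-- **KC-Mod**: the nodal context of `X_H(M q)` over `A`, for any Kummer cover datum `Hc` (supplied by
`exists_isKummerCover`). -/
theorem kcm_nodalCtx (h5 : 5 ≤ q) (hqM : ¬ q ∣ M) (hA : A.LiesOverPrime q)
    (h1 : Old.IsGaussOne D1) (H : IsOrd ψ e) (hψ : ψ ≠ 1) (heven : ψ (-1) = 1)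
    [HasPrincipalDivisors Qb (FBH (psiU M q ψ))]
    [HasPrincipalDivisors kA ↥(kumField e (ubarOne D1 H hψ heven))]
    [HasPrincipalDivisors kA ↥(kumField e (ubarTwo hqM D1 H hψ heven))]
    {ζ : A}
    (Hc : IsKummerCover D1 (Unit.modD2 hqM D1) (Unit.modX₁ hA D1) (Unit.modX₂ D1) e
      (uOne (M := M) H hψ heven) (uTwo hqM H hψ heven) (hSh (M := M) hψ heven)
      (hTwo hqM hψ heven) (kumGen e (ubarOne D1 H hψ heven))
      (kumGen e (ubarTwo hqM D1 H hψ heven)) ζ)
    {g₀ gM g g₁' g₂' : ℕ} (hF₀ : IsCurveOfGenus Qb (FBar (M * q)) g₀)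
    (hFk : IsCurveOfGenus kA (FRes A M) gM)
    (hF : IsCurveOfGenus Qb (FBH (psiU M q ψ)) g)
    (hK₁ : IsCurveOfGenus kA ↥(kumField e (ubarOne D1 H hψ heven)) g₁')
    (hK₂ : IsCurveOfGenus kA ↥(kumField e (ubarTwo hqM D1 H hψ heven)) g₂') :
    ∃ (x₁' : Fin (Unit.modS D1) → Place kA ↥(kumField e (ubarOne D1 H hψ heven)))
      (x₂' : Fin (Unit.modS D1) → Place kA ↥(kumField e (ubarTwo hqM D1 H hψ heven))),
      (∀ c, (x₁' c).restrict (FRes A M) = Unit.modX₁ hA D1 c) ∧
      (∀ c, (x₂' c).restrict (FRes A M) = Unit.modX₂ D1 c) ∧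
      NodalCtx (Unit.chartDatum (gaussExt Hc.lift₁) (gaussExt Hc.lift₂)
        (algebraMap (FBar (M * q)) (FBH (psiU M q ψ)) (Gin0.jF (M * q))) (Unit.c0 hA D1)
        (Unit.modS D1) x₁' x₂') g g₁' g₂' := by
  obtain ⟨θ1, θ2, S⟩ := modular_oneSided hqM hA h1 (Unit.isGaussTwo_modD2 hqM D1)
    (fun x => Val.wq_wq M q hq.out hqM x)
  have C₀ := Unit.modNodalCtx_five_le h5 hqM hA h1 hF₀ hFk
  haveI : FiniteDimensional (FBar (M * q)) (FBH (psiU M q ψ)) := Hc.lift₁.gen.finiteDimensional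
  haveI : Algebra.IsIntegral (FBar (M * q)) (FBH (psiU M q ψ)) := Algebra.IsIntegral.of_finite _ _
  exact nodalCtx_cover C₀ S Hc hF hK₁ hK₂

end MainThm

end Fermat.Agent.S43lib.LGC.KCM
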