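/-
Project H (S43) / LGC / KCM / ThetaQ   (helper8)

**(B) THETA**: in characteristic `q ≥ 5`, for `m` even with `2 ≤ m ≤ q - 3`, the twelfth power of
`12 h̄`, `h̄ = (Ē₄Ē₆/Δ̄)(X^q) · ∑_{n ≥ 1} (∑_{d e = n} d^m e) Xⁿ` (the reduction of the Kummer
generator `h^♯_ψ`, `ψ̄(d) = d^m`), is `P₁(j̄) · Δ̄^m` for a polynomial `P₁`.

Route: with `k = m + q - 1`, `G_k = -B_k/2k + ∑ σ_{k-1}(n) Xⁿ` is `q`-integral (von Staudt–Clausen),
hence `G_k = G̃(E₄, E₆)` with `G̃` isobaric of weight `k` over the valuation ring; mod `q` one has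
`∑ (∑_{d e = n} d^m e) Xⁿ = θ(Ḡ(Ē₄, Ē₆))` and `12 θ(F(Ē₄, Ē₆)) = (k ∂(AH) F + AH ∂F)(Ē₄, Ē₆)` (`AH` the
Hasse polynomial), while `(Ē₄Ē₆/Δ̄)(X^q) = (Ē₄Ē₆/Δ̄)^q`; an isobaric polynomial of weight `12 n` is
`Δ̄^n` times a polynomial in `j̄`.
-/
import Mathlib
import Fermat.Agent.S43lib.LGC.KCM.Series
import Fermat.Agent.S36lib.Count.OrdTwelve
import Fermat.Agent.S37lib.ConjNorm.FrobSeries

set_option autoImplicit false
set_option linter.style.haveILetI false
set_option linter.unusedSectionVars false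

noncomputable section

namespace Fermat.Agent.S43lib.LGC.KCM

open MvPolynomial ModularCurve
open UpperHalfPlane ModularForm MatrixGroups CongruenceSubgroup SlashInvariantForm
  ModularFormClass EisensteinSeries
open Fermat.Agent.S16lib Fermat.Agent.S16lib.SwD Fermat.Agent.S16lib.SwDBridge
open Fermat.Agent.S28lib Fermat.Agent.S18lib Fermat.Agent.LSb.Count Fermat.Agent.S48lib.X1

/-! ### Bernoulli numbers: consequences of von Staudt–Clausen -/

/-- the denominator of `B_{2k}` is prime to every prime `p` with `(p - 1) ∤ 2k` -/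
theorem not_dvd_den_bernoulli {k p : ℕ} (hp : p.Prime) (hpk : ¬ (p - 1) ∣ 2 * k) :
    ¬ p ∣ (bernoulli (2 * k)).den := by
  obtain ⟨T, hT⟩ := Bernoulli.vonStaudt_clausen k
  set S : Finset ℕ := (Finset.range (2 * k + 2)).filter fun p => p.Prime ∧ (p - 1) ∣ 2 * k with hS
  have hB : bernoulli (2 * k) = (T : ℚ) - ∑ s ∈ S, (1 : ℚ) / s := by linarith
  intro hdvd
  rw [hB] at hdvd
  have h1 := hdvd.trans (Rat.sub_den_dvd (T : ℚ) _)
  rw [Rat.den_intCast, one_mul] at h1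
  have h2 := h1.trans (Finset.Rat.den_sum_dvd_prod_den S fun s => (1 : ℚ) / s)
  rw [Prime.dvd_finsetProd_iff (Nat.prime_iff.mp hp)] at h2
  obtain ⟨s, hs, hds⟩ := h2
  rw [hS, Finset.mem_filter] at hs
  obtain ⟨-, hsp, hsk⟩ := hs
  rw [show ((1 : ℚ) / s).den = s by simp [hsp.ne_zero]] at hds
  rw [(Nat.prime_dvd_prime_iff_eq hp hsp).mp hds] at hpk
  exact hpk hsk

/-- `B_{2k} ≠ 0` for `k ≥ 1` (its denominator is even) -/
theorem bernoulli_two_mul_ne_zero {k : ℕ} (hk : 0 < k) : bernoulli (2 * k) ≠ 0 := by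
  obtain ⟨T, hT⟩ := Bernoulli.vonStaudt_clausen k
  set S : Finset ℕ := (Finset.range (2 * k + 2)).filter fun p => p.Prime ∧ (p - 1) ∣ 2 * k with hS
  intro h0
  rw [h0, zero_add] at hT
  have hmem : 2 ∈ S := by
    rw [hS, Finset.mem_filter, Finset.mem_range]
    exact ⟨by omega, Nat.prime_two, by norm_num⟩
  rw [← Finset.add_sum_erase S _ hmem] at hT
  set y' : ℚ := ∑ s ∈ S.erase 2, (1 : ℚ) / s with hy'
  have hhalf : (1 : ℚ) / ((2 : ℕ) : ℚ) = (T : ℚ) - y' := by linarith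
  have hden : ((1 : ℚ) / ((2 : ℕ) : ℚ)).den = 2 := by norm_num
  have h1 : (2 : ℕ) ∣ ((T : ℚ) - y').den := by rw [← hhalf, hden]
  have h2 := h1.trans (Rat.sub_den_dvd (T : ℚ) y')
  rw [Rat.den_intCast, one_mul] at h2
  have h3 := h2.trans (Finset.Rat.den_sum_dvd_prod_den (S.erase 2) fun s => (1 : ℚ) / s)
  rw [Prime.dvd_finsetProd_iff (Nat.prime_iff.mp Nat.prime_two)] at h3
  obtain ⟨s, hs, hds⟩ := h3
  rw [Finset.mem_erase, hS, Finset.mem_filter] at hs
  obtain ⟨hne, -, hsp, -⟩ := hs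
  rw [show ((1 : ℚ) / s).den = s by simp [hsp.ne_zero]] at hds
  exact hne ((Nat.prime_dvd_prime_iff_eq Nat.prime_two hsp).mp hds).symm

section Subring

variable {ℓ : ℕ} (A : Subring ℂ)

/-- `G_k = -B_k/2k + ∑ σ_{k-1}(n) qⁿ` is a level one modular form of weight `k` with
`q`-expansion in `A⟦q⟧` when `(ℓ-1) ∤ k` and `ℓ ∤ 2k`. -/
lemma exists_eis_series (hℓ : ℓ.Prime) (hA : ∀ n : ℕ, ¬ ℓ ∣ n → ((n : ℂ))⁻¹ ∈ A) {k : ℕ}
    (hk : 3 ≤ k) (heven : Even k) (h1 : ¬ (ℓ - 1) ∣ k) (h2 : ¬ ℓ ∣ 2 * k) :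
    ∃ (f : ModularForm 𝒮ℒ k) (a : PowerSeries A), a.map A.subtype = qExpansion 1 f ∧
      ∀ n, 1 ≤ n → PowerSeries.coeff n a = ((ArithmeticFunction.sigma (k - 1) n : ℕ) : A) := by
  obtain ⟨j, hj⟩ := heven
  have hk2 : k = 2 * j := by omega
  have hB0 : bernoulli k ≠ 0 := by
    rw [hk2]; exact bernoulli_two_mul_ne_zero (by omega)
  have hden : ¬ ℓ ∣ (bernoulli k).den := by
    rw [hk2]; exact not_dvd_den_bernoulli hℓ (by rw [← hk2]; exact h1)
  set c : ℂ := -(((bernoulli k : ℚ) : ℂ) / (2 * k)) with hc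
  have hcA : c ∈ A := by
    have e : c = -(((bernoulli k).num : ℂ) * (((bernoulli k).den : ℕ) : ℂ)⁻¹ *
        (((2 * k : ℕ) : ℕ) : ℂ)⁻¹) := by
      rw [hc]
      congr 1
      have hq : ((bernoulli k : ℚ) : ℂ) = ((bernoulli k).num : ℂ) / ((bernoulli k).den : ℂ) := by
        conv_lhs => rw [← Rat.num_div_den (bernoulli k)]
        push_cast
        rfl
      rw [hq]
      push_cast
      rw [div_eq_mul_inv, div_eq_mul_inv]
    rw [e]
    exact A.neg_mem (A.mul_mem (A.mul_mem (intCast_mem A _) (hA _ hden)) (hA _ h2))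
  have hk0 : (k : ℂ) ≠ 0 := by
    have : k ≠ 0 := by omega
    exact_mod_cast this
  have hBC : ((bernoulli k : ℚ) : ℂ) ≠ 0 := by exact_mod_cast hB0
  refine ⟨c • E hk, PowerSeries.mk fun n => if n = 0 then ⟨c, hcA⟩ else
    ((ArithmeticFunction.sigma (k - 1) n : ℕ) : A), ?_, ?_⟩
  · have h2' : ((c • E hk : ModularForm 𝒮ℒ k) : ℍ → ℂ) = c • (E hk : ℍ → ℂ) := rfl
    rw [h2', ModularForm.qExpansion_smul one_pos one_mem_strictPeriods_SL]
    ext n
    rw [PowerSeries.coeff_map, PowerSeries.coeff_mk, PowerSeries.coeff_smul,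
      EisensteinSeries.E_qExpansion_coeff hk ⟨j, hj⟩ n]
    split_ifs with hn
    · simp
    · simp only [Subring.subtype_apply, Subring.coe_natCast, smul_eq_mul]
      rw [hc]
      field_simp
  · intro n hn
    rw [PowerSeries.coeff_mk, if_neg (by omega)]

end Subring

/-! ### `θ` of a series with coefficients `σ_{k-1}(n)` in characteristic `ℓ` -/

section Theta

variable {κ : Type*} [Field κ] {ℓ : ℕ} [Fact ℓ.Prime] [CharP κ ℓ]

theorem natCast_pow_add_pred (d : ℕ) {m : ℕ} (hm : 1 ≤ m) :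
    ((d : κ)) ^ (m + ℓ - 1) = (d : κ) ^ m := by
  have h1 : (d : κ) ^ ℓ = d := by
    rw [← frobenius_def, map_natCast]
  have e : m + ℓ - 1 = (m - 1) + ℓ := by omega
  rw [e, pow_add, h1, ← pow_succ]
  congr 1
  omega

/-- `θ(c + ∑ σ_{m+ℓ-2}(n) Xⁿ) = ∑ (∑_{d e = n} d^m e) Xⁿ` in characteristic `ℓ` -/
theorem theta_eq_eisSer {m : ℕ} (hm : 1 ≤ m) (g : PowerSeries κ)
    (hg : ∀ n, 1 ≤ n → PowerSeries.coeff n g =
      ((ArithmeticFunction.sigma (m + ℓ - 1 - 1) n : ℕ) : κ)) :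
    theta g = eisSer (fun d : ℕ => ((d : κ)) ^ m) := by
  ext n
  rw [theta_apply, coeff_eisSer]
  rcases Nat.eq_zero_or_pos n with rfl | hn
  · rw [PowerSeries.coeff_zero_X_mul, eisCoeff_zero]
  · obtain ⟨n, rfl⟩ := Nat.exists_eq_succ_of_ne_zero hn.ne'
    rw [PowerSeries.coeff_succ_X_mul, PowerSeries.coeff_derivative, hg _ (by omega), eisCoeff,
      Nat.sum_divisorsAntidiagonal (f := fun d e : ℕ => ((d : κ)) ^ m * (e : κ)),
      ArithmeticFunction.sigma_apply, Nat.cast_sum, Finset.sum_mul]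
    refine Finset.sum_congr rfl fun d hd => ?_
    have hdn : d ∣ n + 1 := Nat.dvd_of_mem_divisors hd
    have e1 : ((n : κ) + 1) = (d : κ) * (((n + 1) / d : ℕ) : κ) := by
      rw [← Nat.cast_mul, Nat.mul_div_cancel' hdn]
      push_cast
      rfl
    rw [e1, ← natCast_pow_add_pred d hm]
    push_cast
    have e2 : m + ℓ - 1 = (m + ℓ - 1 - 1) + 1 := by
      have := (Fact.out : ℓ.Prime).two_le
      omega
    conv_rhs => rw [e2, pow_succ]
    ring

end Theta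

/-! ### The polynomial of `G_{m+ℓ-1}` over the residue field -/

section Residue

variable {ℓ : ℕ} [Fact ℓ.Prime] (A : ValuationSubring (AlgebraicClosure ℚ))

local notation "Qb" => AlgebraicClosure ℚ

/-- **the Eisenstein polynomial over `k`**: isobaric of weight `m + ℓ - 1` with
`θ(Ḡ(Ē₄, Ē₆)) = ∑ (∑_{d e = n} d^m e) Xⁿ`. -/
theorem exists_eis_kRes (hA : A.LiesOverPrime ℓ) (h5 : 5 ≤ ℓ) {m : ℕ} (hm : Even m)
    (hm2 : 2 ≤ m) (hmq : m + 3 ≤ ℓ) :
    ∃ G : MvPolynomial (Fin 2) (kRes A), Iso G (m + ℓ - 1) ∧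
      theta (aeval ![Qk (kRes A), Rk (kRes A)] G) =
        eisSer (fun d : ℕ => ((d : kRes A)) ^ m) := by
  have hℓp : ℓ.Prime := Fact.out
  haveI := Gink.charP_kRes A hA
  -- an embedding `ℚ̄ → ℂ` and the image of `A`
  let ι : Qb →+* ℂ := Fermat.Agent.ProgramR.BarField.qbarEmb
  have hι : Function.Injective ι := ι.injective
  let A' : Subring ℂ := A.toSubring.map ι
  let eqv : A.toSubring ≃+* A' := A.toSubring.equivMapOfInjective ι hι
  let red : A' →+* kRes A := (IsLocalRing.residue A).comp (eqv.symm : A' →+* A.toSubring)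
  have hA' : ∀ n : ℕ, ¬ ℓ ∣ n → ((n : ℂ))⁻¹ ∈ A' := by
    intro n hn
    refine Subring.mem_map.mpr ⟨((n : Qb))⁻¹, inv_natCast_mem_of_not_dvd A hA hn, ?_⟩
    rw [map_inv₀, map_natCast]
  have h1728A : (1728 : ℂ)⁻¹ ∈ A' := by
    have := hA' 1728 (fun hdvd => by
      have h2 : ℓ ∣ 2 ^ 6 * 3 ^ 3 := by norm_num; exact hdvd
      rcases (Nat.Prime.dvd_mul hℓp).mp h2 with h | h
      · have := Nat.le_of_dvd (by norm_num) (hℓp.dvd_of_dvd_pow h); omega
      · have := Nat.le_of_dvd (by norm_num) (hℓp.dvd_of_dvd_pow h); omega)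
    simpa using this
  have hodd : Odd ℓ := hℓp.odd_of_ne_two (by omega)
  have hk3 : 3 ≤ m + ℓ - 1 := by omega
  have heven : Even (m + ℓ - 1) := by
    obtain ⟨j, hj⟩ := hodd
    obtain ⟨i, hi⟩ := hm
    exact ⟨i + j, by omega⟩
  have h1 : ¬ (ℓ - 1) ∣ (m + ℓ - 1) := by
    intro hdvd
    have e : m + ℓ - 1 = m + (ℓ - 1) := by omega
    rw [e, Nat.dvd_add_left (dvd_refl _)] at hdvd
    have := Nat.le_of_dvd (by omega) hdvd
    omega
  have h2 : ¬ ℓ ∣ 2 * (m + ℓ - 1) := by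
    intro hdvd
    rcases (Nat.Prime.dvd_mul hℓp).mp hdvd with h | h
    · have := Nat.le_of_dvd (by norm_num) h; omega
    · have e : m + ℓ - 1 = (m - 1) + ℓ := by omega
      rw [e, Nat.dvd_add_left (dvd_refl _)] at h
      have := Nat.le_of_dvd (by omega) h
      omega
  obtain ⟨f, aG, haG, haGn⟩ := exists_eis_series A' hℓp hA' hk3 heven h1 h2
  obtain ⟨FG, hGw, hGe⟩ := exists_poly A' h1728A (m + ℓ - 1) ((m + ℓ - 1 : ℕ) : ℤ) (by simp)
    f aG haG
  refine ⟨MvPolynomial.map red FG, isWeightedHomogeneous_map red hGw, ?_⟩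
  have hev : aeval ![Qk (kRes A), Rk (kRes A)] (MvPolynomial.map red FG) = aG.map red := by
    rw [← map_QA_RA A' red, aeval_map_powerSeries]
    exact congrArg (PowerSeries.map red) hGe
  rw [hev]
  refine theta_eq_eisSer (by omega) _ fun n hn => ?_
  rw [PowerSeries.coeff_map, haGn n hn, map_natCast]

end Residue

/-! ### the prefactor `(E₄E₆/Δ)(X^q)` in characteristic `q` -/

theorem Rz_eq_e6 : Rz = e6 := by
  ext n
  rw [Rz, coeff_sigmaSeries, e6, PowerSeries.coeff_mk]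
  split_ifs with h
  · rfl
  · rw [ArithmeticFunction.sigma_apply]
    push_cast
    rfl

section Pref

variable (κ : Type*) [Field κ]

/-- `E₄E₆/Δ` as a Laurent series over `κ` -/
def w10 : LaurentSeries κ := qInv κ 1 * lvl1 κ 1 (eisenstein4 * e6 * dedekindEtaUnitInv)

theorem w10_mul_DeltaQ :
    w10 κ * DeltaQ κ = phiL κ (XX * YY) := by
  have h3 : (HahnSeries.single (-((1 : ℕ) : ℤ)) (1 : κ)) * HahnSeries.single (1 : ℤ) (1 : κ) = 1 := by
    rw [HahnSeries.single_mul_single]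
    simp
  have h1 : eisenstein4 * e6 * dedekindEtaUnitInv * dedekindEtaUnit = eisenstein4 * e6 := by
    rw [mul_assoc, mul_comm dedekindEtaUnitInv, dedekindEtaUnit_mul_inv, mul_one]
  rw [map_mul, phiL_XX, phiL_YY, Qk, Rk, M5.Qz_eq_eisenstein4, Rz_eq_e6, w10, qInv, lvl1,
    qExpand_one_apply, DeltaQ]
  calc _ = ((HahnSeries.single (-((1 : ℕ) : ℤ)) (1 : κ)) * HahnSeries.single (1 : ℤ) (1 : κ)) *
        (HahnSeries.ofPowerSeries ℤ κ ((eisenstein4 * e6 * dedekindEtaUnitInv).map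
            (Int.castRingHom κ)) *
          HahnSeries.ofPowerSeries ℤ κ (dedekindEtaUnit.map (Int.castRingHom κ))) := by ring
    _ = _ := by rw [h3, one_mul, ← map_mul, ← map_mul, h1, map_mul, map_mul]

variable (q : ℕ) [hq : Fact q.Prime] [NeZero q] [CharP κ q]

theorem pref_eq_pow : pref κ q = w10 κ ^ q := by
  have e1 : qExpand κ q (qInv κ 1) = qInv κ q := by
    rw [qInv, qExpand_single, qInv]
    congr 1
    rw [Nat.cast_one, mul_neg, mul_one]
  have e2 : qExpand κ q (lvl1 κ 1 (eisenstein4 * e6 * dedekindEtaUnitInv)) =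
      lvl1 κ q (eisenstein4 * e6 * dedekindEtaUnitInv) := by
    rw [lvl1, qExpand_one_apply, lvl1]
  rw [S37lib.ConjNorm.pow_char_eq_qExpand q, w10, map_mul, coeffMap_qInv, coeffMap_lvl1, map_mul,
    e1, e2, pref]

end Pref

/-! ### (B) -/

variable {A : ValuationSubring (AlgebraicClosure ℚ)}

local notation "kA" => IsLocalRing.ResidueField A

variable {q : ℕ} [Fact q.Prime] [NeZero q]

/-- **(B) THETA** -/
theorem exists_sharp_pow_eq (h5 : 5 ≤ q) (hA : A.LiesOverPrime q) (m : ℕ) (hm : Even m)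
    (hm2 : 2 ≤ m) (hmq : m + 3 ≤ q) :
    ∃ P₁ : Polynomial kA, ((12 : LaurentSeries kA) * sharp q (fun d : ℕ => ((d : kA)) ^ m)) ^ 12 =
      Polynomial.aeval (jqModC kA) P₁ * DeltaQ kA ^ m := by
  haveI := Gink.charP_kRes A hA
  have hq1 : 1 ≤ q := by omega
  have h1728 : (1728 : kRes A) ≠ 0 := ofNat_1728_ne_zero A hA h5
  obtain ⟨AH, hAH, hAH1⟩ := exists_hasse_kRes A hA h5
  obtain ⟨G, hG, hGθ⟩ := exists_eis_kRes A hA h5 hm hm2 hmq
  set D := rdata (kRes A) h1728 with hD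
  have hevA : D.ev AH = 1 := hAH1
  have hθ : theta (D.ev G) = eisSer (fun d : ℕ => ((d : kRes A)) ^ m) := hGθ
  -- the polynomial `Θ'`
  set Θ : MvPolynomial (Fin 2) (kRes A) :=
    C (((m + q - 1 : ℕ) : kRes A)) * (dd AH * G) + AH * dd G with hΘ
  have hΘiso : Iso Θ (m + 2 * q) := by
    have i1 : Iso (dd AH * G) (m + 2 * q) := by
      have := (iso_dd hAH).mul hG
      have e : q - 1 + 2 + (m + q - 1) = m + 2 * q := by omega
      rwa [e] at this
    have i2 : Iso (AH * dd G) (m + 2 * q) := by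
      have := hAH.mul (iso_dd hG)
      have e : q - 1 + (m + q - 1 + 2) = m + 2 * q := by omega
      rwa [e] at this
    exact (iso_C_mul i1 _).add i2
  have hΘev : D.ev Θ = 12 * eisSer (fun d : ℕ => ((d : kRes A)) ^ m) := by
    have h := RData.theta_ev D G
    rw [ee_iso hG, map_smul, hθ, ← RData.ev_dd_hasse D hq1 hAH hevA] at h
    rw [h, hΘ, map_add, map_mul, map_mul, map_mul, hevA, one_mul]
    have : D.ev (C (((m + q - 1 : ℕ) : kRes A))) =
        algebraMap (kRes A) (PowerSeries (kRes A)) (((m + q - 1 : ℕ) : kRes A)) := by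
      simp [RData.ev]
    rw [this, Algebra.smul_def]
    ring
  -- the numerator
  set N : MvPolynomial (Fin 2) (kRes A) := (XX * YY) ^ (12 * q) * Θ ^ 12 with hN
  have hNiso : Iso N (12 * (12 * q + m) + 4 * 0 + 6 * 0) := by
    have := ((iso_XX (κ := kRes A)).mul iso_YY).pow (12 * q) |>.mul (hΘiso.pow 12)
    have e : (12 * q) • (4 + 6) + 12 • (m + 2 * q) = 12 * (12 * q + m) + 4 * 0 + 6 * 0 := by
      simp only [smul_eq_mul]; ring
    rwa [e] at this
  have hδ : phiL (kRes A) DlN ≠ 0 := by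
    rw [phiL_DlN _ h1728]; exact DeltaQ_ne_zero _
  have hstar := phi_eq_deh (phiL (kRes A)) h1728 hδ (le_of_eq rfl |>.trans (Nat.zero_le 1))
    (Nat.zero_le 1) hNiso
  rw [jphi_phiL _ h1728, phiL_DlN _ h1728, pow_zero, pow_zero, one_mul, one_mul] at hstar
  refine ⟨deh 0 0 N, ?_⟩
  have hΔ0 : DeltaQ (kRes A) ^ (12 * q) ≠ 0 := pow_ne_zero _ (DeltaQ_ne_zero _)
  apply mul_right_cancel₀ hΔ0
  have hphiΘ : phiL (kRes A) Θ =
      (12 : LaurentSeries (kRes A)) *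
        HahnSeries.ofPowerSeries ℤ (kRes A) (eisSer (fun d : ℕ => ((d : kRes A)) ^ m)) := by
    rw [phiL_eq]
    have : aeval ![Qk (kRes A), Rk (kRes A)] Θ = D.ev Θ := rfl
    rw [this, hΘev, map_mul, map_ofNat]
  calc ((12 : LaurentSeries (kRes A)) * sharp q (fun d : ℕ => ((d : kRes A)) ^ m)) ^ 12 *
        DeltaQ (kRes A) ^ (12 * q)
      = (w10 (kRes A) * DeltaQ (kRes A)) ^ (12 * q) * ((12 : LaurentSeries (kRes A)) *
          HahnSeries.ofPowerSeries ℤ (kRes A) (eisSer (fun d : ℕ => ((d : kRes A)) ^ m))) ^ 12 := by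
        rw [sharp, pref_eq_pow (kRes A) q]
        ring
    _ = phiL (kRes A) N := by
        rw [w10_mul_DeltaQ, ← hphiΘ, hN, map_mul (phiL (kRes A)) ((XX * YY) ^ (12 * q)), map_pow, map_pow]
    _ = Polynomial.aeval (jqModC (kRes A)) (deh 0 0 N) * DeltaQ (kRes A) ^ m *
          DeltaQ (kRes A) ^ (12 * q) := by
        rw [hstar, pow_add]
        ring

end Fermat.Agent.S43lib.LGC.KCM
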