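/-
Project H (S43) / LGC / KCM / Final   (helper2)

**KC-Mod, unconditional**: the statements `ThetaStmt`, `OrdDvdStmt` of `OrdGlue.lean` are helper8's
`exists_sharp_pow_eq` (`ThetaQ.lean`) and `ord_dvd_twelve` (`OrdDvd.lean`); hence the Kummer cover
datum of `X_H(M q) → X₀(M q)` and its nodal context exist without hypotheses.
-/
import Mathlib
import Fermat.Agent.S43lib.LGC.KCM.Main
import Fermat.Agent.S43lib.LGC.KCM.ThetaQ
import Fermat.Agent.S43lib.LGC.KCM.OrdDvd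

set_option autoImplicit false
set_option linter.unusedSectionVars false
set_option linter.style.haveILetI false

noncomputable section

namespace Fermat.Agent.S43lib.LGC.KCM

open ModularCurve Polynomial AlgebraicCurve IntermediateField
open Fermat.Agent.ProgramR Fermat.Agent.ProgramR.BarField Fermat.Agent.S18lib Fermat.Agent.LSb
open Fermat.Agent.S48lib.X1 Fermat.Agent.S48lib.X1.HeckeJ
open Fermat.Agent.S43lib.Igusa Fermat.Agent.S43lib.LGC.KC

local notation "Qb" => AlgebraicClosure ℚ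

variable {M q : ℕ} [NeZero M] [NeZero q] [hq : Fact q.Prime]
variable {A : ValuationSubring (AlgebraicClosure ℚ)}

local notation "kA" => IsLocalRing.ResidueField A

variable {D1 : GaussDatum A (FBar (M * q)) (FRes A M)}
variable {ψ : MulChar (ZMod q) Qb} {p t : ℕ}

/-- statement (B) holds -/
theorem thetaStmt (h5 : 5 ≤ q) (hA : A.LiesOverPrime q) : ThetaStmt A q :=
  fun m hm hm2 hmq => exists_sharp_pow_eq h5 hA m hm hm2 hmq

/-- statement (C) holds -/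
theorem ordDvdStmt (h5 : 5 ≤ q) (hqM : ¬ q ∣ M) (hA : A.LiesOverPrime q) : OrdDvdStmt A M q :=
  fun h hh v hj hv => ord_dvd_twelve h5 hqM hA h hh v hj hv

section

variable [HasPrincipalDivisors (IsLocalRing.ResidueField A) (FRes A M)]

/-- **the node condition**, unconditionally -/
theorem node_coprime' (h5 : 5 ≤ q) (hqM : ¬ q ∣ M) (hA : A.LiesOverPrime q)
    (h1 : Old.IsGaussOne D1) (hp : p.Prime) (hp5 : 5 ≤ p) (ht : t ≠ 0)
    (H : IsOrd ψ (p ^ t)) (hψ : ψ ≠ 1) (heven : ψ (-1) = 1)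
    {v : Place kA (FRes A M)} (hv : v ∈ Unit.modNodes D1) :
    IsCoprime ((p ^ t : ℕ) : ℤ) (v.ord (D1.redF (uOne (M := M) H hψ heven))) :=
  node_coprime (thetaStmt h5 hA) (ordDvdStmt h5 hqM hA) h5 hA h1 hp hp5 ht H hψ heven hv

/-- **the Kummer cover datum of `X_H(M q) → X₀(M q)`**, unconditionally -/
theorem exists_isKummerCover' (h5 : 5 ≤ q) (hqM : ¬ q ∣ M) (hA : A.LiesOverPrime q)
    (h1 : Old.IsGaussOne D1) (hp : p.Prime) (hp5 : 5 ≤ p) (ht : t ≠ 0) (H : IsOrd ψ (p ^ t))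
    (hψ : ψ ≠ 1) (heven : ψ (-1) = 1) {gM : ℕ} (hFk : IsCurveOfGenus kA (FRes A M) gM) :
    ∃ ζ : A, IsKummerCover D1 (Unit.modD2 hqM D1) (Unit.modX₁ hA D1) (Unit.modX₂ D1) (p ^ t)
      (uOne (M := M) H hψ heven) (uTwo hqM H hψ heven) (hSh (M := M) hψ heven)
      (hTwo hqM hψ heven) (kumGen (p ^ t) (ubarOne D1 H hψ heven))
      (kumGen (p ^ t) (ubarTwo hqM D1 H hψ heven)) ζ :=
  exists_isKummerCover (thetaStmt h5 hA) (ordDvdStmt h5 hqM hA) h5 hqM hA h1 hp hp5 ht H hψ heven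
    hFk

/-- the residue curves -/
theorem exists_isCurveOfGenus_kumOne (h5 : 5 ≤ q) (hqM : ¬ q ∣ M) (hA : A.LiesOverPrime q)
    (h1 : Old.IsGaussOne D1) (hp : p.Prime) (hp5 : 5 ≤ p) (ht : t ≠ 0) (H : IsOrd ψ (p ^ t))
    (hψ : ψ ≠ 1) (heven : ψ (-1) = 1) {gM : ℕ} (hFk : IsCurveOfGenus kA (FRes A M) gM) :
    ∃ g' : ℕ, IsCurveOfGenus kA ↥(kumField (p ^ t) (ubarOne D1 H hψ heven)) g' :=
  exists_isCurveOfGenus_kum hqM hA (H.natCast_ne_zero hA) H.pos
    (redF_uOne_ne_zero h1 H hψ heven)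
    (irreducible_ubarOne (thetaStmt h5 hA) (ordDvdStmt h5 hqM hA) h5 hA h1 hp hp5 ht H hψ heven hFk)

theorem exists_isCurveOfGenus_kumTwo (h5 : 5 ≤ q) (hqM : ¬ q ∣ M) (hA : A.LiesOverPrime q)
    (h1 : Old.IsGaussOne D1) (hp : p.Prime) (hp5 : 5 ≤ p) (ht : t ≠ 0) (H : IsOrd ψ (p ^ t))
    (hψ : ψ ≠ 1) (heven : ψ (-1) = 1) {gM : ℕ} (hFk : IsCurveOfGenus kA (FRes A M) gM) :
    ∃ g' : ℕ, IsCurveOfGenus kA ↥(kumField (p ^ t) (ubarTwo hqM D1 H hψ heven)) g' := by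
  rw [ubarTwo_eq]
  exact exists_isCurveOfGenus_kumOne h5 hqM hA h1 hp hp5 ht H.inv (inv_ne_one hψ) (inv_even heven)
    hFk

end

end Fermat.Agent.S43lib.LGC.KCM
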