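/-
Project H (S43) / LGC / KCM / Tors   (helper2)

**LGC on torsion, unconditionally** (LGC-A + LGC-B + LGC-C assembled on the modular datum):
`N = M q`, `q ≥ 5` prime, `q ∤ M`, `A` a valuation subring of `ℚ̄` over `q`, `ψ` an even character of
`(ℤ/q)ˣ` of exact order `p^t` (`p ≥ 5` prime, `p ≠ q`, `t ≠ 0`), `F_H` the function field of
`X_H(M q)`, `H = ker ψ`.  Then for every `n` prime to `q`, helper9's statement `LGCTors M q ψ A n`
(`Igusa/WordKCM.lean`) holds: for `t t'` in the inertia group of `A` and `γ` an inertia element or a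
diamond, on `x ∈ Pic⁰(F_H)[n]`,
`(γ - 1)(t' - 1)(t - ⟨cyc t⟩) x = 0` and `(γ - 1)(t - ⟨cyc t⟩)(t' - 1) x = 0`.

Inputs: `exists_isKummerCover'` (`KCM/Final.lean`), `kcm_nodalCtx` (`KCM/Main.lean`),
`lgcTors_of_cover` (helper9, `Igusa/WordKCM.lean`), `Unit.modNodalCtx_five_le`.
-/
import Mathlib
import Fermat.Agent.S43lib.LGC.KCM.Final
import Fermat.Agent.S43lib.Igusa.WordKCM
import Fermat.Agent.LSb.Unit.Final

set_option autoImplicit false
set_option linter.unusedSectionVars false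
set_option linter.style.haveILetI false

noncomputable section

namespace Fermat.Agent.S43lib.LGC.KCM

open ModularCurve Polynomial AlgebraicCurve IntermediateField
open Fermat.Agent.ProgramR Fermat.Agent.ProgramR.BarField Fermat.Agent.S18lib Fermat.Agent.LSb
open Fermat.Agent.S48lib.X1 Fermat.Agent.S48lib.X1.HeckeJ
open Fermat.Agent.S43lib.Igusa Fermat.Agent.S43lib.LGC.KC

local notation "Qb" => AlgebraicClosure ℚ

variable {M q : ℕ} [NeZero M] [NeZero q] [hq : Fact q.Prime]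
variable {A : ValuationSubring (AlgebraicClosure ℚ)}

local notation "kA" => IsLocalRing.ResidueField A

variable {ψ : MulChar (ZMod q) Qb} {p t : ℕ}

/-- `q ∤ p^t` for distinct primes -/
theorem not_dvd_prime_pow (hp : p.Prime) (hpq : p ≠ q) : ¬ q ∣ p ^ t := fun h =>
  hpq ((Nat.prime_dvd_prime_iff_eq hq.out hp).mp (hq.out.dvd_of_dvd_pow h)).symm

/-- **LGC on torsion** for the curve `X_H(M q)`, `H = ker ψ`, `ψ` of order `p^t`. -/
theorem lgcTors (h5 : 5 ≤ q) (hqM : ¬ q ∣ M) (hA : A.LiesOverPrime q) (hp : p.Prime)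
    (hp5 : 5 ≤ p) (hpq : p ≠ q) (ht : t ≠ 0) (H : IsOrd ψ (p ^ t)) (hψ : ψ ≠ 1)
    (heven : ψ (-1) = 1) [HasPrincipalDivisors Qb (FBH (psiU M q ψ))] {n : ℕ}
    (hn : (n : kA) ≠ 0) : LGCTors M q ψ A n := by
  haveI : NeZero (M * q) := ⟨Nat.mul_ne_zero (NeZero.ne M) (NeZero.ne q)⟩
  obtain ⟨g₀, hF₀, -⟩ := Gin0.exists_isCurveOfGenus_FBar (M * q)
  obtain ⟨g', hFM, -⟩ := Gin0.exists_isCurveOfGenus_FBar M
  obtain ⟨gM, hFk⟩ := S37lib.B3.exists_isCurveOfGenus_FRes A M hqM hA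
  haveI : HasPrincipalDivisors Qb (FBar (M * q)) := hF₀.hasPrincipalDivisors
  haveI : HasPrincipalDivisors Qb (FBar M) := hFM.hasPrincipalDivisors
  haveI : HasPrincipalDivisors kA (FRes A M) := hFk.hasPrincipalDivisors
  have h1 := Val.isGaussOne_gaussOne M q A hqM hA
  obtain ⟨ζ, Hc⟩ := exists_isKummerCover' h5 hqM hA h1 hp hp5 ht H hψ heven hFk
  obtain ⟨g, hF⟩ := exists_isCurveOfGenus_FH (M := M) H hψ heven
  obtain ⟨g₁', hK₁⟩ := exists_isCurveOfGenus_kumOne h5 hqM hA h1 hp hp5 ht H hψ heven hFk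
  obtain ⟨g₂', hK₂⟩ := exists_isCurveOfGenus_kumTwo h5 hqM hA h1 hp hp5 ht H hψ heven hFk
  haveI := hK₁.hasPrincipalDivisors
  haveI := hK₂.hasPrincipalDivisors
  obtain ⟨x₁', x₂', hx₁', hx₂', C⟩ :=
    kcm_nodalCtx h5 hqM hA h1 H hψ heven Hc hF₀ hFk hF hK₁ hK₂
  have C₀ := Unit.modNodalCtx_five_le h5 hqM hA h1 hF₀ hFk
  exact lgcTors_of_cover hqM hA H (not_dvd_prime_pow hp hpq) hψ heven h1
    (fun x hx => Val.gaussOne_O_le M q A hqM hA hx) Hc C₀ hx₁' hx₂' C hn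

end Fermat.Agent.S43lib.LGC.KCM
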