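/-
Project H (S43) / LGC / KCM / ExistsPsi   (helper2)

Glue for the consumers of `lgcTors`: the character `ψ : MulChar (ZMod q) ℚ̄` only enters through its
kernel and its exact order.  Every character `κ` of `(ℤ/q)ˣ` (values in ANY commutative group, e.g.
the units of a `p`-adic coefficient ring) of exact order `e` has the same kernel as a `ψ` with
`IsOrd ψ e`; such a `ψ` is even when `e` is odd.  Also `lgcTors_pow`: `LGCTors M q ψ A (p'^k)` for
every prime power `p'^k`, `p' ≠ q`, with the `HasPrincipalDivisors` instance supplied.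
-/
import Mathlib
import Fermat.Agent.S43lib.LGC.KCM.Tors

set_option autoImplicit false
set_option linter.unusedSectionVars false
set_option linter.style.haveILetI false

noncomputable section

namespace Fermat.Agent.S43lib.LGC.KCM

open ModularCurve Polynomial AlgebraicCurve IntermediateField
open Fermat.Agent.ProgramR Fermat.Agent.ProgramR.BarField Fermat.Agent.S18lib Fermat.Agent.LSb
open Fermat.Agent.S48lib.X1 Fermat.Agent.S48lib.X1.HeckeJ
open Fermat.Agent.S43lib.Igusa Fermat.Agent.S43lib.LGC.KC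

local notation "Qb" => AlgebraicClosure ℚ

variable {M q : ℕ} [NeZero M] [NeZero q] [hq : Fact q.Prime]
variable {A : ValuationSubring (AlgebraicClosure ℚ)}

local notation "kA" => IsLocalRing.ResidueField A

/-- a character of `(ℤ/q)ˣ` of exact order `e`, with values anywhere, has the kernel of some
`ψ : MulChar (ZMod q) ℚ̄` of exact order `e`. -/
theorem exists_isOrd_of_orderOf {C : Type*} [CommGroup C] (κ : (ZMod q)ˣ →* C) {e : ℕ}
    (he : 0 < e) (hκ : ∀ a, κ a ^ e = 1) (hprim : ∃ a, orderOf (κ a) = e) :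
    ∃ ψ : MulChar (ZMod q) Qb, IsOrd ψ e ∧ ∀ a : (ZMod q)ˣ, ψ a = 1 ↔ κ a = 1 := by
  obtain ⟨g, hg⟩ := IsCyclic.exists_generator (α := (ZMod q)ˣ)
  -- `κ g` has order `e`
  have hκg : orderOf (κ g) = e := by
    obtain ⟨a, ha⟩ := hprim
    obtain ⟨m, rfl⟩ := Subgroup.mem_zpowers_iff.mp (hg a)
    apply Nat.dvd_antisymm (orderOf_dvd_of_pow_eq_one (hκ g))
    rw [← ha, map_zpow]
    exact orderOf_dvd_of_pow_eq_one (by rw [← zpow_natCast, ← zpow_mul, mul_comm, zpow_mul,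
      zpow_natCast, pow_orderOf_eq_one, one_zpow])
  haveI : NeZero e := ⟨he.ne'⟩
  obtain ⟨ζ, hζ⟩ := HasEnoughRootsOfUnity.exists_primitiveRoot Qb e
  have hζ0 : ζ ≠ 0 := hζ.ne_zero he.ne'
  set ζu : Qbˣ := Units.mk0 ζ hζ0 with hζu
  have hζu' : IsPrimitiveRoot ζu e := by
    rw [← IsPrimitiveRoot.coe_units_iff]
    exact hζ
  have hord : orderOf ζu ∣ orderOf g := by
    rw [← hζu'.eq_orderOf, ← hκg]
    exact orderOf_map_dvd κ g
  set f : (ZMod q)ˣ →* Qbˣ := monoidHomOfForallMemZpowers hg hord with hf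
  have hfg : f g = ζu := monoidHomOfForallMemZpowers_apply_gen hg hord
  refine ⟨MulChar.ofUnitHom f, ⟨he, fun a => ?_, ⟨g, ?_⟩⟩, fun a => ?_⟩
  · rw [MulChar.ofUnitHom_coe, ← Units.val_pow_eq_pow_val, Units.val_eq_one]
    obtain ⟨m, rfl⟩ := Subgroup.mem_zpowers_iff.mp (hg a)
    rw [map_zpow, hfg, ← zpow_natCast, ← zpow_mul, mul_comm, zpow_mul, zpow_natCast,
      hζu'.pow_eq_one, one_zpow]
  · rw [MulChar.ofUnitHom_coe, hfg]
    exact hζ
  · rw [MulChar.ofUnitHom_coe, Units.val_eq_one]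
    obtain ⟨m, rfl⟩ := Subgroup.mem_zpowers_iff.mp (hg a)
    rw [map_zpow, map_zpow, hfg, hζu'.zpow_eq_one_iff_dvd, ← hκg, orderOf_dvd_iff_zpow_eq_one]

/-- a character of odd order is even -/
theorem even_of_isOrd_odd {ψ : MulChar (ZMod q) Qb} {e : ℕ} (H : IsOrd ψ e) (hodd : Odd e) :
    ψ (-1) = 1 := by
  have h1 : ψ (-1) ^ e = 1 := by
    have := H.pow (-1)
    rwa [Units.val_neg, Units.val_one] at this
  have h2 : ψ (-1) ^ 2 = 1 := by
    rw [← map_pow]
    norm_num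
  obtain ⟨m, rfl⟩ := hodd
  rw [pow_succ, pow_mul, h2, one_pow, one_mul] at h1
  exact h1

/-- **`lgcTors` at a prime power**, with the instance supplied. -/
theorem lgcTors_pow {ψ : MulChar (ZMod q) Qb} {p t : ℕ} (h5 : 5 ≤ q) (hqM : ¬ q ∣ M)
    (hA : A.LiesOverPrime q) (hp : p.Prime) (hp5 : 5 ≤ p) (hpq : p ≠ q) (ht : t ≠ 0)
    (H : IsOrd ψ (p ^ t)) (hψ : ψ ≠ 1) (heven : ψ (-1) = 1) (k : ℕ) :
    ∃ _ : HasPrincipalDivisors Qb (FBH (psiU M q ψ)), LGCTors M q ψ A (p ^ k) := by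
  obtain ⟨g, hF⟩ := exists_isCurveOfGenus_FH (M := M) H hψ heven
  refine ⟨hF.hasPrincipalDivisors, ?_⟩
  haveI := hF.hasPrincipalDivisors
  exact lgcTors h5 hqM hA hp hp5 hpq ht H hψ heven
    (natCast_residue_ne_zero hA (not_dvd_prime_pow hp hpq))

end Fermat.Agent.S43lib.LGC.KCM
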