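/-
Project H (S43) / LGC / KCM / OrdDvd   (helper8)

**(C) ORD-DVD**: at ANY level `M` prime to `q ≥ 5`, a function `h` on `X₀(M)_k` with
`h · Δ̄^(q-1) = 1` has, at every zero `v` at which `j̄` is regular (a supersingular point),
`ord_v h ∣ 12`.  This is `S36lib.Count.ord_eq_twelve_five_le` without the hypotheses
`ν₂(M) = ν₃(M) = 0`; the new input is that the ramification indices of `j̄` over `0` and `1728`
divide `3` and `2` (the fibres of the specialisation map on zeros are singletons, since the fibres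
of `j` and `j̄` have the same cardinality).
-/
import Mathlib
import Fermat.Agent.S43lib.LGC.KCM.Series
import Fermat.Agent.S36lib.Count.OrdTwelve

set_option autoImplicit false
set_option linter.style.haveILetI false
set_option linter.unusedSectionVars false

noncomputable section

namespace Fermat.Agent.S43lib.LGC.KCM

open AlgebraicCurve ModularCurve Polynomial IntermediateField
open Fermat.Agent.ProgramR Fermat.Agent.S18lib Fermat.Agent.S28lib Fermat.Agent.LSb

local notation "Qb" => AlgebraicClosure ℚ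

/-! ### The abstract statement: equal fibre cardinalities ⇒ equal ramification indices -/

section Abstract

variable {L : Type*} [Field L] {A : ValuationSubring L}
variable {F : Type*} [Field F] [Algebra L F]
variable {Fk : Type*} [Field Fk] [Algebra (IsLocalRing.ResidueField A) Fk]
variable (D : RedDatum A F Fk)
variable [HasPrincipalDivisors L F] [HasPrincipalDivisors (IsLocalRing.ResidueField A) Fk]

local notation "k" => IsLocalRing.ResidueField A

/-- if the fibres of `y` over `c` and of `ȳ` over `c̄` have the same number of points, then every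
zero of `ȳ - c̄` is the specialisation of a zero of `y - c` of the same order -/
theorem exists_ord_eq_of_card_eq (hdeg : ∀ Q : Place k Fk, 0 < Q.deg) {y : F} (hyO : y ∈ D.O)
    (hpres : Divisor.degree (Tame.poleDiv (K := L) y) =
      Divisor.degree (Tame.poleDiv (K := k) (D.redF y)))
    (c : A) (hc : D.redF y ≠ algebraMap k Fk (IsLocalRing.residue A c))
    (hcard : Nat.card (Tame.zerosOf (K := L) (y - algebraMap L F (c : L))) ≤
      Nat.card (Tame.zerosOf (K := k) (D.redF y - algebraMap k Fk (IsLocalRing.residue A c))))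
    {Q : Place k Fk} (hQ : 0 < Q.ord (D.redF y - algebraMap k Fk (IsLocalRing.residue A c))) :
    ∃ P : Place L F, 0 < P.ord (y - algebraMap L F (c : L)) ∧
      Q.ord (D.redF y - algebraMap k Fk (IsLocalRing.residue A c)) =
        P.ord (y - algebraMap L F (c : L)) := by
  classical
  haveI : Finite (Tame.zerosOf (K := L) (y - algebraMap L F (c : L))) :=
    (Tame.finite_zerosOf _).to_subtype
  let φ : Tame.zerosOf (K := L) (y - algebraMap L F (c : L)) →
      Tame.zerosOf (K := k) (D.redF y - algebraMap k Fk (IsLocalRing.residue A c)) :=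
    fun P => ⟨D.r P.1, Tame.ord_pos_of_ord_pos D hdeg hyO hpres c hc P.2⟩
  have hφ : Function.Surjective φ := by
    rintro ⟨Q, hQ⟩
    obtain ⟨P, hPQ, hP⟩ := Tame.exists_ord_pos_of_ord_pos D hdeg hyO hpres c hc hQ
    exact ⟨⟨P, hP⟩, Subtype.ext hPQ⟩
  have hbij : Function.Bijective φ := hφ.bijective_of_nat_card_le hcard
  obtain ⟨P₀, hP₀Q, hP₀⟩ := Tame.exists_ord_pos_of_ord_pos D hdeg hyO hpres c hc hQ
  refine ⟨P₀, hP₀, ?_⟩
  have hsum := Tame.ord_eq_sum_ord D hdeg hyO hpres c hc P₀
  rw [hP₀Q, max_eq_left hQ.le] at hsum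
  rw [hsum]
  have hfil : (Tame.zeroDiv (K := L) (y - algebraMap L F (c : L))).support.filter
      (fun P => D.r P = Q) = {P₀} := by
    ext P
    rw [Finset.mem_filter, Finset.mem_singleton, Tame.mem_support_zeroDiv]
    constructor
    · rintro ⟨hP, hPQ⟩
      have := hbij.1 (a₁ := ⟨P, hP⟩) (a₂ := ⟨P₀, hP₀⟩) (Subtype.ext (hPQ.trans hP₀Q.symm))
      exact congrArg Subtype.val this
    · rintro rfl
      exact ⟨hP₀, hP₀Q⟩
  rw [hfil, Finset.sum_singleton]

end Abstract

/-! ### `X₀(N)` in characteristic `ℓ ≥ 5` -/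

section Modular

variable (N : ℕ) [NeZero N] {ℓ : ℕ} [Fact ℓ.Prime] (A : ValuationSubring (AlgebraicClosure ℚ))

/-- every zero of `j̄ - ā` (`a = 0`, `1728`, or `ā ≠ 0, 1728`) is the specialisation of a zero of
`j - a` of the same order -/
theorem exists_ord_jK_sub_eq (hℓN : ¬ ℓ ∣ N) (hA : A.LiesOverPrime ℓ) (h5 : 5 ≤ ℓ) (a : A)
    (ha0 : IsLocalRing.residue A a = 0 → a = 0)
    (ha1 : IsLocalRing.residue A a = 1728 → a = 1728)
    (v : Place (kRes A) (FRes A N))
    (hv : 0 < v.ord (Gink.jK A N - algebraMap (kRes A) (FRes A N) (IsLocalRing.residue A a))) :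
    ∃ P : Place Qb (FBar N), 0 < P.ord (Gin0.jF N - algebraMap Qb (FBar N) ((a : A) : Qb)) ∧
      v.ord (Gink.jK A N - algebraMap (kRes A) (FRes A N) (IsLocalRing.residue A a)) =
        P.ord (Gin0.jF N - algebraMap Qb (FBar N) ((a : A) : Qb)) := by
  classical
  have h := S37lib.B3.reductionInputsModL N A hℓN hA
  obtain ⟨g', hF, hFk⟩ := G.exists_genus_of_five_le N A hℓN hA h h5
  have hx : Transcendental (kRes A) (Gink.jK A N) := Gink.transcendental_jK A N
  haveI : Algebra.IsSeparable (kRes A)⟮Gink.jK A N⟯ (FRes A N) := Gink.isSeparable_jK A N hA hℓN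
  letI := hF.hasPrincipalDivisors
  letI := hFk.hasPrincipalDivisors
  set D := V.datum N A hℓN hA h with hD
  have hyO : Gin0.jF N ∈ D.O := G.jF_mem_datum_O N A hℓN hA h
  have hred : D.redF (Gin0.jF N) = Gink.jK A N := G.datum_redF_jF N A hℓN hA h
  have hpres : Divisor.degree (Tame.poleDiv (K := Qb) (Gin0.jF N)) =
      Divisor.degree (Tame.poleDiv (K := kRes A) (D.redF (Gin0.jF N))) := by
    rw [hred, Gin0.degree_poleDiv_jF N, G.degree_poleDiv_of_transcendental (kRes A) hx,
      Gink.finrank_jK A N hA hℓN]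
  have hnc : D.redF (Gin0.jF N) ≠ algebraMap (kRes A) (FRes A N) (IsLocalRing.residue A a) := by
    intro hc
    rw [hred] at hc
    exact hx (hc ▸ isAlgebraic_algebraMap _)
  have hdeg : ∀ Q : Place (kRes A) (FRes A N), 0 < Q.deg := fun Q => by
    rw [hFk.deg_eq_one]; exact one_pos
  have hcard := LSb.Count.card_zerosOf_jK_eq N A hℓN hA h5 a ha0 ha1
  have hv' : 0 < v.ord (D.redF (Gin0.jF N) -
      algebraMap (kRes A) (FRes A N) (IsLocalRing.residue A a)) := by rw [hred]; exact hv
  obtain ⟨P, hP, hPv⟩ := exists_ord_eq_of_card_eq D hdeg hyO hpres a hnc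
    (by rw [hred]; exact hcard.ge) hv'
  rw [hred] at hPv
  exact ⟨P, hP, hPv⟩

/-- every zero of `j̄` has order dividing `3` (characteristic `ℓ ≥ 5`, any level prime to `ℓ`) -/
theorem ord_jK_dvd_three (hℓN : ¬ ℓ ∣ N) (hA : A.LiesOverPrime ℓ) (h5 : 5 ≤ ℓ)
    (v : Place (kRes A) (FRes A N)) (hv : 0 < v.ord (Gink.jK A N)) :
    v.ord (Gink.jK A N) ∣ 3 := by
  have e0 : ((0 : A) : Qb) = 0 := rfl
  obtain ⟨P, hP, hPv⟩ := exists_ord_jK_sub_eq N A hℓN hA h5 0 (fun _ => rfl) (fun h => by
    exfalso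
    rw [map_zero] at h
    exact LSb.Count.ofNat_1728_ne_zero A hA h5 h.symm) v
    (by rw [map_zero, map_zero, sub_zero]; exact hv)
  rw [map_zero, map_zero, sub_zero, e0, map_zero, sub_zero] at hPv
  rw [e0, map_zero, sub_zero] at hP
  rw [hPv]
  exact Gin0.ord_dvd_three N P hP

/-- every zero of `j̄ - 1728` has order dividing `2` (characteristic `ℓ ≥ 5`) -/
theorem ord_jK_sub_dvd_two (hℓN : ¬ ℓ ∣ N) (hA : A.LiesOverPrime ℓ) (h5 : 5 ≤ ℓ)
    (v : Place (kRes A) (FRes A N))
    (hv : 0 < v.ord (Gink.jK A N - algebraMap (kRes A) (FRes A N) 1728)) :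
    v.ord (Gink.jK A N - algebraMap (kRes A) (FRes A N) 1728) ∣ 2 := by
  have hres : IsLocalRing.residue A (1728 : A) = 1728 := map_ofNat _ _
  have e1 : ((1728 : A) : Qb) = 1728 := rfl
  obtain ⟨P, hP, hPv⟩ := exists_ord_jK_sub_eq N A hℓN hA h5 1728 (fun h => by
    exfalso
    rw [hres] at h
    exact LSb.Count.ofNat_1728_ne_zero A hA h5 h) (fun _ => rfl) v
    (by rw [hres]; exact hv)
  rw [hres, e1] at hPv
  rw [e1] at hP
  rw [hPv]
  exact Gin0.ord_sub_dvd_two N P hP

end Modular

/-! ### (C) -/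

variable {M : ℕ} [NeZero M] {A : ValuationSubring (AlgebraicClosure ℚ)}

local notation "kA" => IsLocalRing.ResidueField A

variable {q : ℕ} [Fact q.Prime] [NeZero q]

/-- **(C) ORD-DVD**: `S36lib.Count.ord_eq_twelve_five_le` without the hypotheses `ν₂(M) = 0`,
`ν₃(M) = 0`: every zero of `h = Δ̄^(1-q)` at which `j̄` is regular has order dividing `12`. -/
theorem ord_dvd_twelve (h5 : 5 ≤ q) (hqM : ¬ q ∣ M) (hA : A.LiesOverPrime q) (h : FRes A M)
    (hh : ((h : FRes A M) : LaurentSeries (kRes A)) * DeltaQ (kRes A) ^ (q - 1) = 1)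
    (v : Place (kRes A) (FRes A M)) (hj : Gink.jK A M ∈ v.toValuationSubring)
    (hv : 0 < v.ord h) : v.ord h ∣ 12 := by
  classical
  obtain ⟨m, d, e, hmde, hd, he⟩ := LSb.Count.exists_mde (q := q) h5
  have hd1 : d ≤ 1 := by rw [hd]; split_ifs <;> omega
  have he1 : e ≤ 1 := by rw [he]; split_ifs <;> omega
  obtain ⟨b, hmon, -, hb0, hb1, hbsq, hhb⟩ :=
    LSb.Count.exists_poly_of_mul_DeltaQ M A hA h5 hmde hd1 he1 h hh
  -- the value of `j̄` at `v`
  have hx : Transcendental (kRes A) (Gink.jK A M) := Gink.transcendental_jK A M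
  have hin := S37lib.B3.reductionInputsModL M A hqM hA
  obtain ⟨g', -, hFk⟩ := G.exists_genus_of_five_le M A hqM hA hin h5
  obtain ⟨a, ha⟩ := exists_hasValueAt (hFk.deg_eq_one v)
    ((Tame.adicValuation_le_one_iff_mem v _).2 hj)
  have hpos : 0 < v.ord (Gink.jK A M - algebraMap (kRes A) (FRes A M) a) := by
    rcases hasValueAt_iff.1 ha with h0 | h0
    · exact absurd (h0 ▸ isAlgebraic_algebraMap a) hx
    · exact h0
  have h1728 : (1728 : kRes A) ≠ 0 := LSb.Count.ofNat_1728_ne_zero A hA h5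
  have e1728 : algebraMap (kRes A) (FRes A M) 1728 = 1728 := map_ofNat _ _
  -- the three factors
  have hjne : Gink.jK A M ≠ 0 := fun h0 => hx (h0 ▸ isAlgebraic_zero)
  have hj1ne : Gink.jK A M - algebraMap (kRes A) (FRes A M) 1728 ≠ 0 := fun h0 =>
    hx (sub_eq_zero.mp h0 ▸ isAlgebraic_algebraMap _)
  have hbne : aeval (Gink.jK A M) b ≠ 0 := by
    intro h0
    exact hmon.ne_zero ((transcendental_iff.mp hx) b h0)
  have hord : v.ord h = 4 * d * v.ord (Gink.jK A M) +
      6 * e * v.ord (Gink.jK A M - algebraMap (kRes A) (FRes A M) 1728) +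
      12 * ((b.rootMultiplicity a : ℤ) *
        v.ord (Gink.jK A M - algebraMap (kRes A) (FRes A M) a)) := by
    rw [hhb, map_mul, map_mul, map_pow, map_pow, map_pow, map_sub, aeval_X, aeval_C,
      v.ord_mul (mul_ne_zero (pow_ne_zero _ hjne) (pow_ne_zero _ hj1ne)) (pow_ne_zero _ hbne),
      v.ord_mul (pow_ne_zero _ hjne) (pow_ne_zero _ hj1ne), Cech.ord_pow, Cech.ord_pow,
      Cech.ord_pow, S36lib.Count.ord_aeval_eq hpos hmon.ne_zero]
    push_cast
    ring
  rw [hord] at hv ⊢
  by_cases ha0 : a = 0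
  · -- `j̄(v) = 0`
    subst ha0
    have hpos0 : 0 < v.ord (Gink.jK A M) := by
      have := hpos
      rwa [map_zero, sub_zero] at this
    have e0 : v.ord (Gink.jK A M) ∣ 3 := ord_jK_dvd_three M A hqM hA h5 v hpos0
    have e1 : v.ord (Gink.jK A M - algebraMap (kRes A) (FRes A M) 1728) = 0 :=
      S36lib.Count.ord_sub_const_eq_zero hpos h1728
    have e2 : b.rootMultiplicity 0 = 0 := rootMultiplicity_eq_zero hb0
    rw [e1, e2] at hv ⊢
    push_cast at hv ⊢
    have hd' : d = 1 := by
      rcases Nat.le_one_iff_eq_zero_or_eq_one.mp hd1 with h0 | h0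
      · rw [h0] at hv; simp at hv
      · exact h0
    rw [hd']
    obtain ⟨c, hc⟩ := e0
    refine ⟨c, ?_⟩
    push_cast
    linear_combination 4 * hc
  · by_cases ha1 : a = 1728
    · -- `j̄(v) = 1728`
      subst ha1
      have e0 : v.ord (Gink.jK A M) = 0 := by
        have := S36lib.Count.ord_sub_const_eq_zero hpos (Ne.symm h1728)
        rwa [map_zero, sub_zero] at this
      have e1 : v.ord (Gink.jK A M - algebraMap (kRes A) (FRes A M) 1728) ∣ 2 :=
        ord_jK_sub_dvd_two M A hqM hA h5 v hpos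
      have e2 : b.rootMultiplicity 1728 = 0 := rootMultiplicity_eq_zero hb1
      rw [e0, e2] at hv ⊢
      push_cast at hv ⊢
      have he' : e = 1 := by
        rcases Nat.le_one_iff_eq_zero_or_eq_one.mp he1 with h0 | h0
        · rw [h0] at hv; simp at hv
        · exact h0
      rw [he']
      obtain ⟨c, hc⟩ := e1
      refine ⟨c, ?_⟩
      push_cast
      linear_combination 6 * hc
    · -- generic value
      have e0 : v.ord (Gink.jK A M) = 0 := by
        have := S36lib.Count.ord_sub_const_eq_zero hpos (Ne.symm ha0)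
        rwa [map_zero, sub_zero] at this
      have e1 : v.ord (Gink.jK A M - algebraMap (kRes A) (FRes A M) 1728) = 0 :=
        S36lib.Count.ord_sub_const_eq_zero hpos (Ne.symm ha1)
      have e2 : v.ord (Gink.jK A M - algebraMap (kRes A) (FRes A M) a) = 1 :=
        S36lib.Count.ord_jK_sub_eq_one M A hqM hA h5 a ha0 ha1 v hpos
      have e3 : b.rootMultiplicity a ≤ 1 := by
        by_contra hlt
        push Not at hlt
        exact hbsq a ((le_rootMultiplicity_iff hmon.ne_zero).mp hlt)
      rw [e0, e1, e2] at hv ⊢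
      have e4 : b.rootMultiplicity a = 1 := by
        rcases Nat.le_one_iff_eq_zero_or_eq_one.mp e3 with h0 | h0
        · rw [h0] at hv
          simp at hv
        · exact h0
      rw [e4]
      norm_num

end Fermat.Agent.S43lib.LGC.KCM
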